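/-
GATE-Z (S15) / [MOD-beta] (T1-EQ), file 1 (helper22): the FORMAL Tate series.

For a commutative ring `R` and elements `u ui t : R` (in the applications `u * ui = 1` and
`(1 - u) * t = 1`, i.e. `ui = u⁻¹`, `t = (1 - u)⁻¹`) we define, in `R⟦X⟧` (`X` = the formal `q`),

* `lam2 c = ∑_{m, d ≥ 1} c m d X^(m d)` (coefficientwise a sum over `Nat.divisorsAntidiagonal`),
  `lam c = lam2 (fun _ d => c d)` (Lambert transform);
* `Xf = u t² + ∑ d (u^d + u^{-d} - 2) X^(m d)`, `Yf`, `Zf = 2 Yf + Xf`, `Wf`,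
  `sf k = ∑ d^k X^(m d)`, `a4f = -5 sf 3`, `a6f`, `tf`, `cf = 2 sf 1 - 24 (sf 1)² - 12 tf`.

All definitions are topology-free and natural in `R` (`map_*` lemmas).
-/
import Mathlib
import Fermat.Agent.GZ.Tate.Defs

set_option autoImplicit false

noncomputable section

namespace Fermat.Agent.GZ.Tate.T1Eq

open PowerSeries

variable {R : Type*} [CommRing R]

/-- `∑_{m, d ≥ 1} c m d X^(m d)`. -/
def lam2 (c : ℕ → ℕ → R) : R⟦X⟧ :=
  PowerSeries.mk fun N => ∑ x ∈ N.divisorsAntidiagonal, c x.1 x.2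

/-- the Lambert transform `∑_{m, d ≥ 1} c d X^(m d)`. -/
def lam (c : ℕ → R) : R⟦X⟧ := lam2 fun _ d => c d

theorem coeff_lam2 (c : ℕ → ℕ → R) (N : ℕ) :
    coeff N (lam2 c) = ∑ x ∈ N.divisorsAntidiagonal, c x.1 x.2 := by
  rw [lam2, coeff_mk]

theorem coeff_lam (c : ℕ → R) (N : ℕ) : coeff N (lam c) = ∑ d ∈ N.divisors, c d := by
  rw [lam, coeff_lam2, Nat.sum_divisorsAntidiagonal' (f := fun _ d => c d)]

theorem lam2_add (c c' : ℕ → ℕ → R) : lam2 (fun m d => c m d + c' m d) = lam2 c + lam2 c' := by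
  ext N; simp [coeff_lam2, Finset.sum_add_distrib]

theorem lam2_sub (c c' : ℕ → ℕ → R) : lam2 (fun m d => c m d - c' m d) = lam2 c - lam2 c' := by
  ext N; simp [coeff_lam2, Finset.sum_sub_distrib]

theorem lam2_smul (a : R) (c : ℕ → ℕ → R) : lam2 (fun m d => a * c m d) = C a * lam2 c := by
  ext N; simp [coeff_lam2, Finset.mul_sum]

theorem lam_add (c c' : ℕ → R) : lam (fun d => c d + c' d) = lam c + lam c' := lam2_add _ _

theorem lam_sub (c c' : ℕ → R) : lam (fun d => c d - c' d) = lam c - lam c' := lam2_sub _ _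

theorem lam_smul (a : R) (c : ℕ → R) : lam (fun d => a * c d) = C a * lam c := lam2_smul _ _

theorem map_lam2 {S : Type*} [CommRing S] (φ : R →+* S) (c : ℕ → ℕ → R) :
    PowerSeries.map φ (lam2 c) = lam2 fun m d => φ (c m d) := by
  ext N; simp [coeff_lam2]

theorem map_lam {S : Type*} [CommRing S] (φ : R →+* S) (c : ℕ → R) :
    PowerSeries.map φ (lam c) = lam fun d => φ (c d) := map_lam2 φ _

/-! ### the formal Tate series -/

/-- formal `X(u, q)`. -/
def Xf (u ui t : R) : R⟦X⟧ := C (u * t ^ 2) + lam fun d => (d : R) * (u ^ d + ui ^ d - 2)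

/-- formal `Y(u, q)`. -/
def Yf (u ui t : R) : R⟦X⟧ :=
  C (u ^ 2 * t ^ 3) + lam fun d => (d.choose 2 : R) * u ^ d - ((d + 1).choose 2 : R) * ui ^ d + d

/-- formal `Z = 2 Y + X = u dX/du`. -/
def Zf (u ui t : R) : R⟦X⟧ := C (u * (1 + u) * t ^ 3) + lam fun d => (d : R) ^ 2 * (u ^ d - ui ^ d)

/-- formal `W = u dZ/du`. -/
def Wf (u ui t : R) : R⟦X⟧ :=
  C (u * (1 + 4 * u + u ^ 2) * t ^ 4) + lam fun d => (d : R) ^ 3 * (u ^ d + ui ^ d)

variable (R) in
/-- formal `s_k = ∑ σ_k(N) X^N`. -/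
def sf (k : ℕ) : R⟦X⟧ := lam fun d => (d : R) ^ k

variable (R) in
/-- formal `a₄ = -5 s₃`. -/
def a4f : R⟦X⟧ := -5 * sf R 3

variable (R) in
/-- formal `a₆ = -(5 s₃ + 7 s₅)/12` with integer coefficients. -/
def a6f : R⟦X⟧ := -lam fun d => (a6Coeff d : R)

variable (R) in
/-- formal `∑_k k zT(X^k) = ∑ N σ₁(N) X^N`. -/
def tf : R⟦X⟧ := lam2 fun m d => (m : R) * (d : R) ^ 2

variable (R) in
/-- the constant of the quadratic identity `W = 6 X² + X + c`. -/
def cf : R⟦X⟧ := 2 * sf R 1 - 24 * sf R 1 ^ 2 - 12 * tf R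

section Map

variable {S : Type*} [CommRing S] (φ : R →+* S)

theorem map_Xf (u ui t : R) : PowerSeries.map φ (Xf u ui t) = Xf (φ u) (φ ui) (φ t) := by
  simp [Xf, map_lam, map_ofNat]

theorem map_Yf (u ui t : R) : PowerSeries.map φ (Yf u ui t) = Yf (φ u) (φ ui) (φ t) := by
  simp [Yf, map_lam]

theorem map_Zf (u ui t : R) : PowerSeries.map φ (Zf u ui t) = Zf (φ u) (φ ui) (φ t) := by
  simp [Zf, map_lam]

theorem map_Wf (u ui t : R) : PowerSeries.map φ (Wf u ui t) = Wf (φ u) (φ ui) (φ t) := by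
  simp [Wf, map_lam, map_ofNat]

theorem map_sf (k : ℕ) : PowerSeries.map φ (sf R k) = sf S k := by
  simp [sf, map_lam]

theorem map_a4f : PowerSeries.map φ (a4f R) = a4f S := by
  simp [a4f, map_sf, map_ofNat]

theorem map_a6f : PowerSeries.map φ (a6f R) = a6f S := by
  simp [a6f, map_lam]

theorem map_tf : PowerSeries.map φ (tf R) = tf S := by
  simp [tf, map_lam2]

theorem map_cf : PowerSeries.map φ (cf R) = cf S := by
  simp [cf, map_sf, map_tf, map_ofNat]

end Map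

/-- `Z = 2 Y + X` (needs `(1 - u) t = 1`). -/
theorem Zf_eq (u ui t : R) (ht : (1 - u) * t = 1) : Zf u ui t = 2 * Yf u ui t + Xf u ui t := by
  have hc : ∀ d : ℕ, (2 : R) * (d.choose 2 : R) + d = (d : R) ^ 2 := by
    intro d
    have h : 2 * d.choose 2 + d = d ^ 2 := by
      induction d with
      | zero => simp
      | succ n ih =>
        rw [Nat.choose_succ_succ, Nat.choose_one_right]
        nlinarith [ih]
    exact_mod_cast congrArg (Nat.cast (R := R)) h
  have hc' : ∀ d : ℕ, (2 : R) * ((d + 1).choose 2 : R) = (d : R) ^ 2 + d := by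
    intro d
    have := hc (d + 1)
    push_cast at this
    linear_combination this
  have h1 : u * (1 + u) * t ^ 3 = u ^ 2 * t ^ 3 + u ^ 2 * t ^ 3 + u * t ^ 2 := by
    linear_combination (u * t ^ 2) * ht
  rw [Zf, Yf, Xf, h1, two_mul]
  ext N
  simp only [map_add, coeff_lam]
  have e : ∀ d ∈ N.divisors, (d : R) ^ 2 * (u ^ d - ui ^ d) =
      ((d.choose 2 : R) * u ^ d - ((d + 1).choose 2 : R) * ui ^ d + d) +
      ((d.choose 2 : R) * u ^ d - ((d + 1).choose 2 : R) * ui ^ d + d) +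
      (d : R) * (u ^ d + ui ^ d - 2) := by
    intro d _
    linear_combination (-(u ^ d)) * hc d + ui ^ d * hc' d
  rw [Finset.sum_congr rfl e, Finset.sum_add_distrib, Finset.sum_add_distrib]
  ring

end Fermat.Agent.GZ.Tate.T1Eq
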