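/-
GATE-Z (S15) / [MOD-beta] (T1-EQ), file 2 (helper22): closed forms.

`gv w = (1 - w)⁻¹` in `R⟦X⟧`; all the "terms" of the Tate series are POLYNOMIALS in `gv w`:
`lT = g - 1 = w/(1-w)`, `xT = g² - g = w/(1-w)²`, `zT = 2g³ - 3g² + g = w(1+w)/(1-w)³`,
`wT = 6g⁴ - 12g³ + 7g² - g = w(1+4w+w²)/(1-w)⁴`.  At the points `pt a e = a qX^e` (`e ≥ 1`) their
coefficients are explicit, and the sums over `e` are Lambert transforms (`hasSum_*`, for the
product topology of `R⟦X⟧` over a DISCRETE `R`).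
-/
import Fermat.Agent.GZ.Tate.T1Eq.Formal

set_option autoImplicit false

noncomputable section

namespace Fermat.Agent.GZ.Tate.T1Eq

open PowerSeries

variable {R : Type*} [CommRing R]

local notation "qX" => PowerSeries.X

/-- `(1 - w)⁻¹` (junk if `1 - w` is not a unit). -/
def gv (w : R⟦X⟧) : R⟦X⟧ := Ring.inverse (1 - w)

theorem one_sub_mul_gv {w : R⟦X⟧} (h : IsUnit (1 - w)) : (1 - w) * gv w = 1 :=
  Ring.mul_inverse_cancel _ h

theorem gv_eq {w g : R⟦X⟧} (h : (1 - w) * g = 1) : gv w = g := by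
  have hu : IsUnit (1 - w) := IsUnit.of_mul_eq_one _ h
  have h1 := one_sub_mul_gv hu
  calc gv w = ((1 - w) * g) * gv w := by rw [h, one_mul]
    _ = g * ((1 - w) * gv w) := by ring
    _ = g := by rw [h1, mul_one]

theorem isUnit_one_sub {w : R⟦X⟧} (h : constantCoeff w = 0) : IsUnit (1 - w) := by
  rw [isUnit_iff_constantCoeff]; simp [h]

/-- `w/(1-w)`. -/
def lT (w : R⟦X⟧) : R⟦X⟧ := gv w - 1
/-- `w/(1-w)²`. -/
def xT (w : R⟦X⟧) : R⟦X⟧ := gv w ^ 2 - gv w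
/-- `w(1+w)/(1-w)³`. -/
def zT (w : R⟦X⟧) : R⟦X⟧ := 2 * gv w ^ 3 - 3 * gv w ^ 2 + gv w
/-- `w(1+4w+w²)/(1-w)⁴`. -/
def wT (w : R⟦X⟧) : R⟦X⟧ := 6 * gv w ^ 4 - 12 * gv w ^ 3 + 7 * gv w ^ 2 - gv w

theorem six_xT_sq (w : R⟦X⟧) : 6 * xT w ^ 2 = wT w - xT w := by
  unfold xT wT; ring

theorem lT_eq {w : R⟦X⟧} (h : IsUnit (1 - w)) : lT w = w * gv w := by
  unfold lT; linear_combination one_sub_mul_gv h

theorem xT_eq {w : R⟦X⟧} (h : IsUnit (1 - w)) : xT w = w * gv w ^ 2 := by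
  unfold xT; linear_combination (gv w) * one_sub_mul_gv h

/-- the point `a X^e`. -/
def pt (a : R) (e : ℕ) : R⟦X⟧ := C a * qX ^ e

theorem pt_mul_X_pow (a : R) (e k : ℕ) : pt a e * qX ^ k = pt a (e + k) := by
  unfold pt; rw [pow_add, mul_assoc]

theorem constantCoeff_pt (a : R) {e : ℕ} (he : e ≠ 0) : constantCoeff (pt a e) = 0 := by
  simp [pt, he]

theorem isUnit_one_sub_pt (a : R) {e : ℕ} (he : e ≠ 0) : IsUnit (1 - pt a e) :=
  isUnit_one_sub (constantCoeff_pt a he)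

theorem gv_C {u t : R} (ht : (1 - u) * t = 1) : gv (C u) = C t := by
  apply gv_eq
  rw [← map_one (C (R := R)), ← map_sub, ← map_mul, ht]

theorem isUnit_one_sub_C {u t : R} (ht : (1 - u) * t = 1) : IsUnit (1 - (C u : R⟦X⟧)) :=
  IsUnit.of_mul_eq_one (C t) (by rw [← map_one (C (R := R)), ← map_sub, ← map_mul, ht])

/-- the substitution `X ↦ a X^e`. -/
def psi (a : R) (e : ℕ) (he : e ≠ 0) : R⟦X⟧ →+* R⟦X⟧ :=
  ((expand e he : R⟦X⟧ →ₐ[R] R⟦X⟧) : R⟦X⟧ →+* R⟦X⟧).comp (rescale a)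

theorem psi_X (a : R) (e : ℕ) (he : e ≠ 0) : psi a e he qX = pt a e := by
  simp [psi, pt, rescale_X, expand_X, expand_C]

theorem coeff_psi (a : R) (e : ℕ) (he : e ≠ 0) (f : R⟦X⟧) (N : ℕ) :
    coeff N (psi a e he f) = if e ∣ N then a ^ (N / e) * coeff (N / e) f else 0 := by
  simp only [psi, RingHom.comp_apply, RingHom.coe_coe]
  rw [coeff_expand]
  split_ifs with h
  · rw [coeff_rescale]
  · rfl

theorem gv_pt (a : R) (e : ℕ) (he : e ≠ 0) : gv (pt a e) = psi a e he (mk 1) := by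
  apply gv_eq
  rw [← psi_X a e he, ← map_one (psi a e he), ← map_sub, ← map_mul, mul_comm,
    mk_one_mul_one_sub_eq_one, map_one]

section Base

theorem mk_one_sub_one : (mk 1 : R⟦X⟧) - 1 = mk fun n => if n = 0 then 0 else 1 := by
  ext n
  rcases n with _ | n <;> simp

private theorem choose_two (n : ℕ) : ((1 + n).choose 1 : R) = n + 1 := by
  simp [add_comm]

private theorem choose_three_nat (n : ℕ) : 2 * (n + 2).choose 2 = (n + 1) * (n + 2) := by
  induction n with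
  | zero => simp
  | succ n ih =>
    rw [Nat.choose_succ_succ' (n + 2) 1, Nat.choose_one_right]
    nlinarith [ih]

private theorem choose_four_nat (n : ℕ) : 6 * (n + 3).choose 3 = (n + 1) * (n + 2) * (n + 3) := by
  induction n with
  | zero => simp [Nat.choose]
  | succ n ih =>
    rw [Nat.choose_succ_succ' (n + 3) 2]
    nlinarith [ih, choose_three_nat (n + 1)]

private theorem choose_three (n : ℕ) : 2 * ((2 + n).choose 2 : R) = (n + 1) * (n + 2) := by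
  rw [add_comm 2 n]
  exact_mod_cast congrArg (Nat.cast (R := R)) (choose_three_nat n)

private theorem choose_four (n : ℕ) :
    6 * ((3 + n).choose 3 : R) = (n + 1) * (n + 2) * (n + 3) := by
  rw [add_comm 3 n]
  exact_mod_cast congrArg (Nat.cast (R := R)) (choose_four_nat n)

theorem mk_one_xT : (mk 1 : R⟦X⟧) ^ 2 - mk 1 = mk fun n => (n : R) := by
  rw [mk_one_pow_eq_mk_choose_add R 1]
  ext n
  simp only [map_sub, coeff_mk, Pi.one_apply, choose_two]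
  ring

theorem mk_one_zT :
    2 * (mk 1 : R⟦X⟧) ^ 3 - 3 * (mk 1) ^ 2 + mk 1 = mk fun n => (n : R) ^ 2 := by
  rw [mk_one_pow_eq_mk_choose_add R 1, mk_one_pow_eq_mk_choose_add R 2]
  have h2 : (2 : R⟦X⟧) = C (2 : R) := (map_ofNat (C (R := R)) 2).symm
  have h3 : (3 : R⟦X⟧) = C (3 : R) := (map_ofNat (C (R := R)) 3).symm
  ext n
  rw [h2, h3]
  simp only [map_add, map_sub, coeff_C_mul, coeff_mk, Pi.one_apply, choose_two]
  linear_combination choose_three (R := R) n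

theorem mk_one_wT :
    6 * (mk 1 : R⟦X⟧) ^ 4 - 12 * (mk 1) ^ 3 + 7 * (mk 1) ^ 2 - mk 1 = mk fun n => (n : R) ^ 3 := by
  rw [mk_one_pow_eq_mk_choose_add R 1, mk_one_pow_eq_mk_choose_add R 2,
    mk_one_pow_eq_mk_choose_add R 3]
  have h6 : (6 : R⟦X⟧) = C (6 : R) := (map_ofNat (C (R := R)) 6).symm
  have h12 : (12 : R⟦X⟧) = C (12 : R) := (map_ofNat (C (R := R)) 12).symm
  have h7 : (7 : R⟦X⟧) = C (7 : R) := (map_ofNat (C (R := R)) 7).symm
  ext n
  rw [h6, h12, h7]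
  simp only [map_add, map_sub, coeff_C_mul, coeff_mk, Pi.one_apply, choose_two]
  linear_combination choose_four (R := R) n - 6 * choose_three (R := R) n

end Base

variable (a : R) {e : ℕ} (he : e ≠ 0)

include he

theorem coeff_gv_pt (N : ℕ) : coeff N (gv (pt a e)) = if e ∣ N then a ^ (N / e) else 0 := by
  rw [gv_pt a e he, coeff_psi]
  simp

theorem coeff_lT_pt (N : ℕ) :
    coeff N (lT (pt a e)) = if e ∣ N then (if N / e = 0 then 0 else a ^ (N / e)) else 0 := by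
  rw [lT, gv_pt a e he, ← map_one (psi a e he), ← map_sub, mk_one_sub_one, coeff_psi]
  simp

theorem coeff_xT_pt (N : ℕ) :
    coeff N (xT (pt a e)) = if e ∣ N then a ^ (N / e) * ((N / e : ℕ) : R) else 0 := by
  rw [xT, gv_pt a e he, ← map_pow, ← map_sub, mk_one_xT, coeff_psi]
  simp

theorem coeff_zT_pt (N : ℕ) :
    coeff N (zT (pt a e)) = if e ∣ N then a ^ (N / e) * ((N / e : ℕ) : R) ^ 2 else 0 := by
  have h : zT (pt a e) = psi a e he (2 * (mk 1 : R⟦X⟧) ^ 3 - 3 * (mk 1) ^ 2 + mk 1) := by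
    rw [zT, gv_pt a e he]; simp [map_ofNat]
  rw [h, mk_one_zT, coeff_psi]
  simp

theorem coeff_wT_pt (N : ℕ) :
    coeff N (wT (pt a e)) = if e ∣ N then a ^ (N / e) * ((N / e : ℕ) : R) ^ 3 else 0 := by
  have h : wT (pt a e) =
      psi a e he (6 * (mk 1 : R⟦X⟧) ^ 4 - 12 * (mk 1) ^ 3 + 7 * (mk 1) ^ 2 - mk 1) := by
    rw [wT, gv_pt a e he]; simp [map_ofNat]
  rw [h, mk_one_wT, coeff_psi]
  simp

omit he

theorem X_pow_dvd_lT_pt (e : ℕ) (he : e ≠ 0) : qX ^ e ∣ lT (pt a e) := by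
  rw [lT_eq (isUnit_one_sub_pt a he), pt]
  exact ⟨C a * gv (C a * qX ^ e), by ring⟩

theorem X_pow_dvd_xT_pt (e : ℕ) (he : e ≠ 0) : qX ^ e ∣ xT (pt a e) := by
  rw [xT_eq (isUnit_one_sub_pt a he), pt]
  exact ⟨C a * gv (C a * qX ^ e) ^ 2, by ring⟩

end Fermat.Agent.GZ.Tate.T1Eq
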