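/-
GATE-Z (S15) / [MOD-beta] (T1-EQ), file 5 (helper22): the formal ODE lemma (Mathlib only).

`S` a commutative ring in which the nonzero integers are non-zero-divisors, `x y w : S⟦X⟧`, `c : S`
with  `y = X x' - 2x`,  `w = X y' - 3y`,  `w = 6x² + X² x + c X⁴`,  `x₀ = 1`
(the pole-cleared forms of `Z = DX`, `W = DZ`, `W = 6X² + X + c` for `x = z² X(e^z)`).  Then
`x₁ = x₃ = x₅ = 0`, `12 x₂ = -1`, `24 c = 1 - 240 x₄`, and the first integral
`y² = 4x³ + X² x² + 2c X⁴ x + e₆ X⁶` with `216 e₆ = -6048 x₆ - 1 + 36 c`.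
-/
import Mathlib

set_option autoImplicit false

namespace Fermat.Agent.GZ.Tate.T1Eq.Ode

open PowerSeries

variable {S : Type*} [CommRing S]

theorem coeff_X_mul_derivative (f : S⟦X⟧) (j : ℕ) :
    coeff j (X * d⁄dX S f) = (j : S) * coeff j f := by
  rcases j with _ | j
  · simp
  · rw [coeff_succ_X_mul, coeff_derivative]
    push_cast
    ring

theorem coeff_mul_range (f g : S⟦X⟧) (n : ℕ) :
    coeff n (f * g) = ∑ i ∈ Finset.range (n + 1), coeff i f * coeff (n - i) g := by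
  rw [coeff_mul, Finset.Nat.sum_antidiagonal_eq_sum_range_succ_mk]

section Main

variable (hS : ∀ n : ℕ, n ≠ 0 → ∀ a : S, (n : S) * a = 0 → a = 0)
variable (x y w : S⟦X⟧) (c : S)
variable (ha : y = X * d⁄dX S x - 2 * x) (hb : w = X * d⁄dX S y - 3 * y)
variable (hc : w = 6 * x ^ 2 + X ^ 2 * x + X ^ 4 * C c) (h0 : coeff 0 x = 1)

include ha in
theorem coeff_y (j : ℕ) : coeff j y = ((j : S) - 2) * coeff j x := by
  have h2 : (2 : S⟦X⟧) = C (2 : S) := (map_ofNat (C (R := S)) 2).symm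
  rw [ha, map_sub, coeff_X_mul_derivative, h2, coeff_C_mul]
  ring

include ha hb in
theorem coeff_w (j : ℕ) : coeff j w = ((j : S) - 3) * (((j : S) - 2) * coeff j x) := by
  have h3 : (3 : S⟦X⟧) = C (3 : S) := (map_ofNat (C (R := S)) 3).symm
  rw [hb, map_sub, coeff_X_mul_derivative, h3, coeff_C_mul, coeff_y x y ha]
  ring

include hc in
theorem coeff_w' (j : ℕ) : coeff j w = 6 * coeff j (x ^ 2) +
    (if 2 ≤ j then coeff (j - 2) x else 0) + (if j = 4 then c else 0) := by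
  have h6 : (6 : S⟦X⟧) = C (6 : S) := (map_ofNat (C (R := S)) 6).symm
  rw [hc, map_add, map_add, h6, coeff_C_mul, coeff_X_pow_mul', coeff_X_pow_mul', coeff_C]
  congr 1
  by_cases h4 : j = 4
  · subst h4; simp
  · rcases Nat.lt_or_ge j 4 with h | h
    · simp [h4, Nat.not_le.mpr h]
    · have : j - 4 ≠ 0 := by omega
      simp [h4, h, this]

include hS ha hb hc h0 in
/-- the low coefficients of `x`. -/
theorem low_coeffs : coeff 1 x = 0 ∧ 12 * coeff 2 x = -1 ∧ coeff 3 x = 0 ∧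
    24 * c = 1 - 240 * coeff 4 x ∧ coeff 5 x = 0 := by
  have key : ∀ j : ℕ, ((j : S) - 3) * (((j : S) - 2) * coeff j x) = 6 * coeff j (x ^ 2) +
      (if 2 ≤ j then coeff (j - 2) x else 0) + (if j = 4 then c else 0) := fun j => by
    rw [← coeff_w x y w ha hb, coeff_w' x w c hc]
  have sq : ∀ n, coeff n (x ^ 2) = ∑ i ∈ Finset.range (n + 1), coeff i x * coeff (n - i) x :=
    fun n => by rw [pow_two, coeff_mul_range]
  have k1 := key 1
  have k2 := key 2
  have k3 := key 3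
  have k4 := key 4
  have k5 := key 5
  have h0' : constantCoeff x = 1 := by rw [← coeff_zero_eq_constantCoeff_apply]; exact h0
  simp only [sq, Finset.sum_range_succ, Finset.sum_range_zero, h0] at k1 k2 k3 k4 k5
  norm_num [h0, h0'] at k1 k2 k3 k4 k5
  have x1 : coeff 1 x = 0 := by
    apply hS 10 (by norm_num)
    push_cast
    linear_combination (-1 : S) * k1
  rw [x1] at k2 k3 k4 k5
  have x2 : 12 * coeff 2 x = -1 := by linear_combination (-1 : S) * k2
  have x3 : coeff 3 x = 0 := by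
    apply hS 12 (by norm_num)
    push_cast
    linear_combination (-1 : S) * k3
  rw [x3] at k4 k5
  have x5 : coeff 5 x = 0 := by
    apply hS 6 (by norm_num)
    push_cast
    linear_combination (-1 : S) * k5
  refine ⟨x1, x2, x3, ?_, x5⟩
  linear_combination (-24 : S) * k4 - (12 * coeff 2 x + 1) * x2


include hS ha hb hc in
/-- the first integral has a single coefficient. -/
theorem first_integral_aux :
    y ^ 2 - 4 * x ^ 3 - X ^ 2 * x ^ 2 - 2 * X ^ 4 * C c * x =
      X ^ 6 * C (coeff 6 (y ^ 2 - 4 * x ^ 3 - X ^ 2 * x ^ 2 - 2 * X ^ 4 * C c * x)) := by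
  set E : S⟦X⟧ := y ^ 2 - 4 * x ^ 3 - X ^ 2 * x ^ 2 - 2 * X ^ 4 * C c * x with hE
  have ha' : X * d⁄dX S x = y + 2 * x := by rw [ha]; ring
  have hb' : X * d⁄dX S y = w + 3 * y := by rw [hb]; ring
  have hDE : d⁄dX S E = 2 * y * d⁄dX S y - 12 * x ^ 2 * d⁄dX S x -
      (2 * X * x ^ 2 + X ^ 2 * (2 * x * d⁄dX S x)) -
      (8 * X ^ 3 * C c * x + 2 * X ^ 4 * C c * d⁄dX S x) := by
    have d2 : ∀ f : S⟦X⟧, d⁄dX S (f ^ 2) = 2 * f * d⁄dX S f := fun f => by
      rw [derivative_pow]; push_cast; ring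
    have d3 : ∀ f : S⟦X⟧, d⁄dX S (f ^ 3) = 3 * f ^ 2 * d⁄dX S f := fun f => by
      rw [derivative_pow]; push_cast; ring
    have dm : ∀ f g : S⟦X⟧, d⁄dX S (f * g) = f * d⁄dX S g + g * d⁄dX S f := fun f g => by
      rw [Derivation.leibniz, smul_eq_mul, smul_eq_mul]
    have dX2 : d⁄dX S ((X : S⟦X⟧) ^ 2) = 2 * X := by
      rw [derivative_pow, derivative_X]; push_cast; ring
    have dX4 : d⁄dX S ((X : S⟦X⟧) ^ 4) = 4 * X ^ 3 := by
      rw [derivative_pow, derivative_X]; push_cast; ring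
    have d2' : d⁄dX S (2 : S⟦X⟧) = 0 := by
      rw [← map_ofNat (C (R := S)) 2]; exact derivative_C
    have d4' : d⁄dX S (4 : S⟦X⟧) = 0 := by
      rw [← map_ofNat (C (R := S)) 4]; exact derivative_C
    rw [hE, map_sub, map_sub, map_sub, d2, dm 4 (x ^ 3), d3, d4', dm (X ^ 2) (x ^ 2), d2, dX2,
      dm (2 * X ^ 4 * C c) x, dm (2 * X ^ 4) (C c), dm 2 (X ^ 4), dX4, d2', derivative_C]
    ring
  have hode : X * d⁄dX S E = 6 * E := by
    rw [hDE, hE]
    linear_combination (2 * y) * hb' + (2 * y) * hc +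
      (-12 * x ^ 2 - 2 * X ^ 2 * x - 2 * X ^ 4 * C c) * ha'
  have hcoef : ∀ j : ℕ, j ≠ 6 → coeff j E = 0 := by
    intro j hj
    have h := congrArg (coeff j) hode
    have h6 : (6 : S⟦X⟧) = C (6 : S) := (map_ofNat (C (R := S)) 6).symm
    rw [coeff_X_mul_derivative, h6, coeff_C_mul] at h
    rcases Nat.lt_or_gt_of_ne hj with hlt | hgt
    · apply hS (6 - j) (by omega)
      rw [Nat.cast_sub hlt.le]
      push_cast
      linear_combination (-1 : S) * h
    · apply hS (j - 6) (by omega)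
      rw [Nat.cast_sub hgt.le]
      push_cast
      linear_combination h
  ext j
  rw [coeff_X_pow_mul', coeff_C]
  by_cases hj : j = 6
  · subst hj; simp
  · rw [hcoef j hj]
    split_ifs with h1 h2
    · exfalso; omega
    · rfl
    · rfl

include hS ha hb hc h0 in
/-- **the first integral** `y² = 4x³ + X² x² + 2c X⁴ x + e₆ X⁶`. -/
theorem first_integral : ∃ e6 : S,
    y ^ 2 = 4 * x ^ 3 + X ^ 2 * x ^ 2 + 2 * X ^ 4 * C c * x + X ^ 6 * C e6 ∧
      216 * e6 = -6048 * coeff 6 x - 1 + 36 * c := by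
  obtain ⟨x1, x2, x3, -, x5⟩ := low_coeffs hS x y w c ha hb hc h0
  refine ⟨coeff 6 (y ^ 2 - 4 * x ^ 3 - X ^ 2 * x ^ 2 - 2 * X ^ 4 * C c * x), ?_, ?_⟩
  · have h := first_integral_aux hS x y w c ha hb hc
    linear_combination h
  · have h0' : constantCoeff x = 1 := by rw [← coeff_zero_eq_constantCoeff_apply]; exact h0
    have sq : ∀ n, coeff n (x ^ 2) = ∑ i ∈ Finset.range (n + 1), coeff i x * coeff (n - i) x :=
      fun n => by rw [pow_two, coeff_mul_range]
    have cube : coeff 6 (x ^ 3) = ∑ i ∈ Finset.range 7, coeff i (x ^ 2) * coeff (6 - i) x := by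
      rw [pow_succ, coeff_mul_range]
    have ysq : coeff 6 (y ^ 2) = ∑ i ∈ Finset.range 7, coeff i y * coeff (6 - i) y := by
      rw [pow_two, coeff_mul_range]
    have h4 : (4 : S⟦X⟧) = C (4 : S) := (map_ofNat (C (R := S)) 4).symm
    have e1 : (2 : S⟦X⟧) * X ^ 4 * C c * x = X ^ 4 * (C (2 * c) * x) := by
      rw [map_mul, map_ofNat]; ring
    rw [map_sub, map_sub, map_sub, h4, coeff_C_mul, e1, coeff_X_pow_mul', coeff_X_pow_mul',
      coeff_C_mul, cube, ysq]
    simp only [sq, coeff_y x y ha, Finset.sum_range_succ, Finset.sum_range_zero, x1, x3, x5, h0,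
      h0']
    norm_num
    linear_combination (-432 * coeff 4 x - 36 * c -
      (72 * coeff 2 x ^ 2 + 12 * coeff 2 x - 1)) * x2

end Main

end Fermat.Agent.GZ.Tate.T1Eq.Ode
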