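/-
GATE-Z (S15) / [MOD-beta] (T1-EQ), file 6 (helper22): the GENERIC point `u = e^z`.

`E = ℚ⟦z⟧`, `F = Frac E`, `u = e^z`.  The quadratic identity `W = 6X² + X + c` over `F`, cleared of
poles by `z², z³, z⁴`, lives in `E⟦q⟧`; after swapping the two variables it is the hypothesis of the
ODE lemma (`Ode.lean`) over `S = ℚ⟦q⟧`, which returns `c = -10 s₃` and the first integral
`Z² = 4X³ + X² + 4a₄X + 4a₆`, hence the Tate equation over `F`.
-/
import Fermat.Agent.GZ.Tate.T1Eq.Quad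
import Fermat.Agent.GZ.Tate.T1Eq.Ode

set_option autoImplicit false

noncomputable section

namespace Fermat.Agent.GZ.Tate.T1Eq

open PowerSeries

local notation "qX" => PowerSeries.X

/-- `ℚ⟦z⟧`. -/
abbrev EE : Type := PowerSeries ℚ

/-- `e^z`. -/
def ez : EE := PowerSeries.exp ℚ

/-- `e^{-z}`. -/
def ezi : EE := evalNegHom (PowerSeries.exp ℚ)

theorem ez_mul_ezi : ez * ezi = 1 := exp_mul_exp_neg_eq_one

theorem deriv_ez : d⁄dX ℚ ez = ez := derivative_exp ℚ

theorem deriv_ezi : d⁄dX ℚ ezi = -ezi := by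
  have h : d⁄dX ℚ (ez * ezi) = 0 := by rw [ez_mul_ezi]; exact derivative_one
  rw [Derivation.leibniz, smul_eq_mul, smul_eq_mul, deriv_ez] at h
  have h2 : ezi * (ez * d⁄dX ℚ ezi + ezi * ez) = 0 := by rw [h, mul_zero]
  have h3 := ez_mul_ezi
  linear_combination h2 - (d⁄dX ℚ ezi + ezi) * h3

theorem deriv_ez_pow (d : ℕ) : d⁄dX ℚ (ez ^ d) = (d : EE) * ez ^ d := by
  rcases d with _ | d
  · simp
  · rw [derivative_pow, deriv_ez, Nat.add_sub_cancel, pow_succ]; ring

theorem deriv_ezi_pow (d : ℕ) : d⁄dX ℚ (ezi ^ d) = -((d : EE) * ezi ^ d) := by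
  rcases d with _ | d
  · simp
  · rw [derivative_pow, deriv_ezi, Nat.add_sub_cancel, pow_succ]; ring

theorem coeff_ez_pow (d j : ℕ) : coeff j (ez ^ d) = (d : ℚ) ^ j / (j.factorial : ℚ) := by
  rw [ez, exp_pow_eq_rescale_exp, coeff_rescale, coeff_exp]
  simp [div_eq_mul_inv]

theorem coeff_ezi_pow (d j : ℕ) :
    coeff j (ezi ^ d) = (-(d : ℚ)) ^ j / (j.factorial : ℚ) := by
  rw [ezi, ← map_pow, exp_pow_eq_rescale_exp, evalNegHom, coeff_rescale, coeff_rescale, coeff_exp]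
  rw [neg_pow]
  simp [div_eq_mul_inv]
  ring

/-- `(e^z - 1)/z`. -/
def phi : EE := PowerSeries.mk fun n => coeff (n + 1) ez

theorem X_mul_phi : (qX : EE) * phi = ez - 1 := by
  ext n
  rcases n with _ | n
  · simp [ez]
  · rw [coeff_succ_X_mul, phi, coeff_mk, map_sub, coeff_one]
    simp

theorem constantCoeff_phi : constantCoeff phi = 1 := by
  rw [← coeff_zero_eq_constantCoeff_apply, phi, coeff_mk, ez, coeff_exp]
  simp

/-- `z/(e^z - 1)`. -/
def psiE : EE := phi⁻¹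

theorem phi_mul_psiE : phi * psiE = 1 :=
  PowerSeries.mul_inv_cancel phi (by rw [constantCoeff_phi]; exact one_ne_zero)

theorem X_eq : (qX : EE) = (ez - 1) * psiE := by
  rw [← X_mul_phi, mul_assoc, phi_mul_psiE, mul_one]

theorem deriv_phi : (qX : EE) * d⁄dX ℚ phi = ez - phi := by
  have h : d⁄dX ℚ ((qX : EE) * phi) = ez := by
    rw [X_mul_phi, map_sub, deriv_ez, derivative_one, sub_zero]
  rw [Derivation.leibniz, derivative_X, smul_eq_mul, smul_eq_mul] at h
  linear_combination h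

theorem deriv_psiE : (qX : EE) * d⁄dX ℚ psiE = -(psiE ^ 2 * (ez - phi)) := by
  have h : d⁄dX ℚ (phi * psiE) = 0 := by rw [phi_mul_psiE]; exact derivative_one
  rw [Derivation.leibniz, smul_eq_mul, smul_eq_mul] at h
  have h1 := deriv_phi
  have h2 := phi_mul_psiE
  linear_combination (qX * psiE) * h - psiE ^ 2 * h1 - (qX * d⁄dX ℚ psiE) * h2

/-- the polar part of `z² X`: `z² e^z/(1 - e^z)²`. -/
def pX : EE := ez * psiE ^ 2

/-- the polar part of `z³ Z`. -/
def pZ : EE := -(ez * (1 + ez) * psiE ^ 3)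

/-- the polar part of `z⁴ W`. -/
def pW : EE := ez * (1 + 4 * ez + ez ^ 2) * psiE ^ 4

theorem pZ_eq : pZ = qX * d⁄dX ℚ pX - 2 * pX := by
  have h1 := deriv_psiE
  have h2 := phi_mul_psiE
  have h3 := X_mul_phi
  have hd : d⁄dX ℚ pX = ez * psiE ^ 2 + ez * (2 * psiE * d⁄dX ℚ psiE) := by
    rw [pX, Derivation.leibniz, smul_eq_mul, smul_eq_mul, deriv_ez, derivative_pow]
    push_cast
    ring
  rw [hd, pZ, pX]
  linear_combination (-(2 * ez * psiE)) * h1 + (-(2 * ez * psiE ^ 2)) * h2 -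
    (ez * psiE ^ 3) * h3 + (ez * psiE ^ 2 * qX) * h2

theorem constantCoeff_pX : constantCoeff pX = 1 := by
  have h : constantCoeff psiE = 1 := by
    have := congrArg constantCoeff phi_mul_psiE
    rw [map_mul, constantCoeff_phi, one_mul, map_one] at this
    exact this
  rw [pX, map_mul, map_pow, h, ez, constantCoeff_exp]
  simp

theorem pW_eq : pW = qX * d⁄dX ℚ pZ - 3 * pZ := by
  have h1 := deriv_psiE
  have h2 := phi_mul_psiE
  have h3 := X_mul_phi
  have hd : d⁄dX ℚ pZ = -((ez + 2 * ez ^ 2) * psiE ^ 3 +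
      ez * (1 + ez) * (3 * psiE ^ 2 * d⁄dX ℚ psiE)) := by
    rw [pZ, map_neg, Derivation.leibniz, Derivation.leibniz, smul_eq_mul, smul_eq_mul,
      smul_eq_mul, smul_eq_mul, map_add, deriv_ez, derivative_one, derivative_pow]
    push_cast
    ring
  rw [hd, pZ, pW]
  linear_combination (3 * ez * (1 + ez) * psiE ^ 2) * h1 + ((ez + 2 * ez ^ 2) * psiE ^ 4) * h3 -
    (qX * (ez + 2 * ez ^ 2) * psiE ^ 3 - 3 * ez * (1 + ez) * psiE ^ 3) * h2

/-- the nodal cubic: the `q⁰`-part of the first integral. -/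
theorem nodal : pZ ^ 2 = 4 * pX ^ 3 + qX ^ 2 * pX ^ 2 := by
  rw [pZ, pX]
  linear_combination (-(ez ^ 2 * psiE ^ 4) * (qX + (ez - 1) * psiE)) * X_eq

/-! ### the pole-cleared series in `E⟦q⟧` -/

/-- `E⟦q⟧`. -/
abbrev PP : Type := PowerSeries EE

/-- `∑ d (e^{dz} + e^{-dz} - 2) q^{md}`. -/
def HX : PP := lam fun d => (d : EE) * (ez ^ d + ezi ^ d - 2)

/-- `∑ d² (e^{dz} - e^{-dz}) q^{md}`. -/
def HZ : PP := lam fun d => (d : EE) ^ 2 * (ez ^ d - ezi ^ d)

/-- `∑ d³ (e^{dz} + e^{-dz}) q^{md}`. -/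
def HW : PP := lam fun d => (d : EE) ^ 3 * (ez ^ d + ezi ^ d)

/-- `z² X`. -/
def Xt : PP := C pX + C (qX ^ 2) * HX

/-- `z³ Z`. -/
def Zt : PP := C pZ + C (qX ^ 3) * HZ

/-- `z⁴ W`. -/
def Wt : PP := C pW + C (qX ^ 4) * HW

theorem deriv_coeff_HX (N : ℕ) : d⁄dX ℚ (coeff N HX) = coeff N HZ := by
  rw [HX, HZ, coeff_lam, coeff_lam, map_sum]
  refine Finset.sum_congr rfl fun d _ => ?_
  have hd : d⁄dX ℚ ((d : EE)) = 0 := by
    rw [← map_natCast (C (R := ℚ))]; exact derivative_C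
  have h2 : d⁄dX ℚ (2 : EE) = 0 := by
    rw [← map_ofNat (C (R := ℚ)) 2]; exact derivative_C
  rw [Derivation.leibniz, smul_eq_mul, smul_eq_mul, hd, map_sub, map_add, deriv_ez_pow,
    deriv_ezi_pow, h2]
  ring

theorem deriv_coeff_HZ (N : ℕ) : d⁄dX ℚ (coeff N HZ) = coeff N HW := by
  rw [HZ, HW, coeff_lam, coeff_lam, map_sum]
  refine Finset.sum_congr rfl fun d _ => ?_
  have hd : d⁄dX ℚ ((d : EE) ^ 2) = 0 := by
    rw [← map_natCast (C (R := ℚ)), ← map_pow]; exact derivative_C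
  rw [Derivation.leibniz, smul_eq_mul, smul_eq_mul, hd, map_sub, deriv_ez_pow, deriv_ezi_pow]
  ring

theorem coeff_zero_lam {R : Type*} [CommRing R] (c : ℕ → R) : coeff 0 (lam c) = 0 := by
  rw [coeff_lam]; simp

theorem coeff_Xt (N : ℕ) : coeff N Xt = (if N = 0 then pX else 0) + qX ^ 2 * coeff N HX := by
  rw [Xt, map_add, coeff_C, coeff_C_mul]

theorem coeff_Zt (N : ℕ) : coeff N Zt = (if N = 0 then pZ else 0) + qX ^ 3 * coeff N HZ := by
  rw [Zt, map_add, coeff_C, coeff_C_mul]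

theorem coeff_Wt (N : ℕ) : coeff N Wt = (if N = 0 then pW else 0) + qX ^ 4 * coeff N HW := by
  rw [Wt, map_add, coeff_C, coeff_C_mul]

/-- `Z̃ = z X̃' - 2 X̃`, coefficientwise in `q`. -/
theorem coeff_Zt_eq (N : ℕ) :
    coeff N Zt = qX * d⁄dX ℚ (coeff N Xt) - 2 * coeff N Xt := by
  have dX2 : d⁄dX ℚ ((qX : EE) ^ 2) = 2 * qX := by
    rw [derivative_pow, derivative_X]; push_cast; ring
  rw [coeff_Zt, coeff_Xt, map_add, Derivation.leibniz, smul_eq_mul, smul_eq_mul, dX2,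
    deriv_coeff_HX]
  split_ifs with h
  · rw [pZ_eq]; ring
  · rw [map_zero]; ring

/-- `W̃ = z Z̃' - 3 Z̃`, coefficientwise in `q`. -/
theorem coeff_Wt_eq (N : ℕ) :
    coeff N Wt = qX * d⁄dX ℚ (coeff N Zt) - 3 * coeff N Zt := by
  have dX3 : d⁄dX ℚ ((qX : EE) ^ 3) = 3 * qX ^ 2 := by
    rw [derivative_pow, derivative_X]; push_cast; ring
  rw [coeff_Wt, coeff_Zt, map_add, Derivation.leibniz, smul_eq_mul, smul_eq_mul, dX3,
    deriv_coeff_HZ]
  split_ifs with h
  · rw [pW_eq]; ring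
  · rw [map_zero]; ring

/-! ### the generic point over `F = Frac E` -/

/-- `Frac ℚ⟦z⟧`. -/
abbrev FF : Type := FractionRing EE

/-- `E → F`. -/
abbrev iota : EE →+* FF := algebraMap EE FF

theorem iota_injective : Function.Injective iota := IsFractionRing.injective EE FF

/-- `u = e^z` in `F`. -/
def uF : FF := iota ez
/-- `u⁻¹ = e^{-z}` in `F`. -/
def uiF : FF := iota ezi
/-- `(1 - u)⁻¹ = -ψ/z` in `F`. -/
def tF : FF := -(iota psiE) * (iota qX)⁻¹

theorem iota_X_ne_zero : iota (qX : EE) ≠ 0 := by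
  intro h
  have := iota_injective (h.trans (map_zero iota).symm)
  exact PowerSeries.X_ne_zero this

theorem uF_mul_uiF : uF * uiF = 1 := by
  rw [uF, uiF, ← map_mul, ez_mul_ezi, map_one]

theorem one_sub_uF_mul_tF : (1 - uF) * tF = 1 := by
  have h1 : (1 : FF) - uF = -(iota qX * iota phi) := by
    rw [uF, ← map_mul, X_mul_phi, map_sub, map_one]; ring
  have h2 : iota phi * iota psiE = 1 := by rw [← map_mul, phi_mul_psiE, map_one]
  rw [h1, tF]
  have h3 := mul_inv_cancel₀ iota_X_ne_zero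
  linear_combination (iota phi * iota psiE) * h3 + h2

theorem map_injective_of_injective {A B : Type*} [CommRing A] [CommRing B] (f : A →+* B)
    (hf : Function.Injective f) : Function.Injective (PowerSeries.map f) := by
  intro a b h
  ext n
  apply hf
  rw [← coeff_map, ← coeff_map, h]

theorem iota_pX : iota pX = iota qX ^ 2 * (uF * tF ^ 2) := by
  have h3 := mul_inv_cancel₀ iota_X_ne_zero
  rw [pX, uF, tF, map_mul, map_pow]
  linear_combination (-(iota ez * iota psiE ^ 2) * (iota qX * (iota qX)⁻¹ + 1)) * h3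

theorem iota_pZ : iota pZ = iota qX ^ 3 * (uF * (1 + uF) * tF ^ 3) := by
  have h3 := mul_inv_cancel₀ iota_X_ne_zero
  rw [pZ, uF, tF, map_neg, map_mul, map_mul, map_add, map_one, map_pow]
  linear_combination ((iota ez * (1 + iota ez) * iota psiE ^ 3) *
    ((iota qX * (iota qX)⁻¹) ^ 2 + iota qX * (iota qX)⁻¹ + 1)) * h3

theorem iota_pW : iota pW = iota qX ^ 4 * (uF * (1 + 4 * uF + uF ^ 2) * tF ^ 4) := by
  have h3 := mul_inv_cancel₀ iota_X_ne_zero
  rw [pW, uF, tF, map_mul, map_mul, map_add, map_add, map_one, map_pow, map_pow, map_mul,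
    map_ofNat]
  linear_combination (-(iota ez * (1 + 4 * iota ez + iota ez ^ 2) * iota psiE ^ 4) *
    ((iota qX * (iota qX)⁻¹) ^ 3 + (iota qX * (iota qX)⁻¹) ^ 2 + iota qX * (iota qX)⁻¹ + 1)) * h3

theorem map_Xt : PowerSeries.map iota Xt = C (iota qX) ^ 2 * Xf uF uiF tF := by
  rw [Xt, Xf, map_add, map_mul, map_C, map_C, HX, map_lam, iota_pX, map_pow]
  simp only [map_mul, map_sub, map_add, map_pow, map_natCast, map_ofNat, uF, uiF]
  ring

theorem map_Zt : PowerSeries.map iota Zt = C (iota qX) ^ 3 * Zf uF uiF tF := by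
  rw [Zt, Zf, map_add, map_mul, map_C, map_C, HZ, map_lam, iota_pZ, map_pow]
  simp only [map_mul, map_sub, map_add, map_pow, map_natCast, map_ofNat, map_one, uF, uiF]
  ring

theorem map_Wt : PowerSeries.map iota Wt = C (iota qX) ^ 4 * Wf uF uiF tF := by
  rw [Wt, Wf, map_add, map_mul, map_C, map_C, HW, map_lam, iota_pW, map_pow]
  simp only [map_mul, map_sub, map_add, map_pow, map_natCast, map_ofNat, map_one, uF, uiF]
  ring

/-- **the pole-cleared quadratic identity** in `E⟦q⟧`. -/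
theorem Wt_eq : Wt = 6 * Xt ^ 2 + C (qX ^ 2) * Xt + C (qX ^ 4) * cf EE := by
  apply map_injective_of_injective iota iota_injective
  have h := Wf_eq uF uiF tF uF_mul_uiF one_sub_uF_mul_tF
  simp only [map_add, map_mul, map_pow, map_ofNat, map_C, map_cf, map_Xt, map_Wt]
  rw [h]
  ring

end Fermat.Agent.GZ.Tate.T1Eq
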