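/-
GATE-Z (S15) / [MOD-beta] (T1-EQ), file 7 (helper22): the Tate equation at the GENERIC point
`u = e^z` over `F = Frac ℚ⟦z⟧`:  swap of the two variables of `ℚ⟦z⟧⟦q⟧`, application of the ODE
lemma over `S = ℚ⟦q⟧`, identification of the constants (`c = -10 s₃`, `e₆ = 4 a₆`) from the
`q⁰`-coefficients, and the return to `F⟦q⟧`.
-/
import Fermat.Agent.GZ.Tate.T1Eq.Jets

set_option autoImplicit false

noncomputable section

namespace Fermat.Agent.GZ.Tate.T1Eq

open PowerSeries

local notation "qX" => PowerSeries.X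

/-! ### the swap of the two variables -/

/-- the swap `z ↔ q` of `ℚ⟦z⟧⟦q⟧`. -/
def swapFun (f : PP) : PP := PowerSeries.mk fun j => PowerSeries.mk fun N => coeff j (coeff N f)

theorem coeff_swapFun (f : PP) (j N : ℕ) : coeff N (coeff j (swapFun f)) = coeff j (coeff N f) := by
  rw [swapFun, coeff_mk, coeff_mk]

/-- the swap as a ring homomorphism. -/
def swap : PP →+* PP where
  toFun := swapFun
  map_one' := by
    ext j N
    rw [coeff_swapFun]
    simp only [coeff_one]
    by_cases hN : N = 0 <;> by_cases hj : j = 0 <;> simp [hN, hj]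
  map_mul' f g := by
    ext j N
    rw [coeff_swapFun, coeff_mul, map_sum, coeff_mul, map_sum]
    simp only [coeff_mul, coeff_swapFun]
    exact Finset.sum_comm
  map_zero' := by
    ext j N
    rw [coeff_swapFun]; simp
  map_add' f g := by
    ext j N
    simp only [map_add, coeff_swapFun]

theorem coeff_swap (f : PP) (j N : ℕ) : coeff N (coeff j (swap f)) = coeff j (coeff N f) :=
  coeff_swapFun f j N

theorem swap_swap (f : PP) : swap (swap f) = f := by
  ext N j
  rw [coeff_swap, coeff_swap]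

theorem swap_injective : Function.Injective swap := fun f g h => by
  rw [← swap_swap f, ← swap_swap g, h]

theorem swap_C (a : EE) : swap (C a) = PowerSeries.map (C (R := ℚ)) a := by
  ext j N
  rw [coeff_swap, coeff_C, coeff_map, coeff_C]
  split_ifs <;> simp

theorem swap_map_C (s : EE) : swap (PowerSeries.map (C (R := ℚ)) s) = C s := by
  rw [← swap_C, swap_swap]

theorem swap_C_X_pow (k : ℕ) : swap (C ((qX : EE) ^ k)) = (qX : PP) ^ k := by
  rw [swap_C, map_pow, map_X]

/-- `ε`: the `q⁰`-coefficient, as a ring hom on the swapped side. -/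
def eps : PP →+* EE := PowerSeries.map (constantCoeff (R := ℚ))

theorem eps_swap (f : PP) : eps (swap f) = coeff 0 f := by
  ext j
  rw [eps, coeff_map, ← coeff_zero_eq_constantCoeff_apply, coeff_swap]

/-! ### the hypotheses of the ODE lemma -/

theorem hS_EE : ∀ n : ℕ, n ≠ 0 → ∀ a : EE, (n : EE) * a = 0 → a = 0 := by
  intro n hn a h
  rcases mul_eq_zero.mp h with h1 | h1
  · exfalso
    have := congrArg (constantCoeff (R := ℚ)) h1
    rw [map_natCast, map_zero] at this
    exact hn (by exact_mod_cast this)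
  · exact h1

theorem swap_ha : swap Zt = qX * d⁄dX EE (swap Xt) - 2 * swap Xt := by
  ext j N
  have h2 : (2 : PP) = C (2 : EE) := (map_ofNat (C (R := EE)) 2).symm
  have h2' : (2 : EE) = C (2 : ℚ) := (map_ofNat (C (R := ℚ)) 2).symm
  rw [coeff_swap, coeff_Zt_eq, map_sub, map_sub, Ode.coeff_X_mul_derivative,
    Ode.coeff_X_mul_derivative, h2, coeff_C_mul, map_sub, ← map_natCast (C (R := ℚ)),
    coeff_C_mul, coeff_swap, h2', coeff_C_mul, coeff_C_mul, coeff_swap]

theorem swap_hb : swap Wt = qX * d⁄dX EE (swap Zt) - 3 * swap Zt := by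
  ext j N
  have h3 : (3 : PP) = C (3 : EE) := (map_ofNat (C (R := EE)) 3).symm
  have h3' : (3 : EE) = C (3 : ℚ) := (map_ofNat (C (R := ℚ)) 3).symm
  rw [coeff_swap, coeff_Wt_eq, map_sub, map_sub, Ode.coeff_X_mul_derivative,
    Ode.coeff_X_mul_derivative, h3, coeff_C_mul, map_sub, ← map_natCast (C (R := ℚ)),
    coeff_C_mul, coeff_swap, h3', coeff_C_mul, coeff_C_mul, coeff_swap]

theorem cf_EE : cf EE = PowerSeries.map (C (R := ℚ)) (cf ℚ) := (map_cf (C (R := ℚ))).symm

theorem swap_hc : swap Wt = 6 * swap Xt ^ 2 + qX ^ 2 * swap Xt + qX ^ 4 * C (cf ℚ) := by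
  rw [Wt_eq, map_add, map_add, map_mul, map_mul, map_mul, map_pow, swap_C_X_pow, swap_C_X_pow,
    cf_EE, swap_map_C, map_ofNat]

theorem coeff_zero_HX : coeff 0 HX = 0 := coeff_zero_lam _

theorem coeff_zero_Xt : coeff 0 Xt = pX := by
  rw [coeff_Xt, coeff_zero_HX]; simp

theorem coeff_zero_Zt : coeff 0 Zt = pZ := by
  rw [coeff_Zt, HZ, coeff_zero_lam]; simp

theorem swap_h0 : coeff 0 (swap Xt) = 1 := by
  ext N
  rw [coeff_swap, coeff_Xt, map_add, coeff_one]
  have h : coeff 0 ((qX : EE) ^ 2 * coeff N HX) = 0 := by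
    rw [coeff_X_pow_mul']; simp
  rw [h, add_zero]
  split_ifs with hN
  · rw [coeff_zero_eq_constantCoeff_apply, constantCoeff_pX]
  · simp

/-! ### the jets of `X̃` -/

theorem coeff_two_HX (N : ℕ) : coeff 2 (coeff N HX) = coeff N (sf ℚ 3) := by
  rw [HX, coeff_lam, sf, coeff_lam, map_sum]
  refine Finset.sum_congr rfl fun d _ => ?_
  have h2 : (2 : EE) = C (2 : ℚ) := (map_ofNat (C (R := ℚ)) 2).symm
  rw [← map_natCast (C (R := ℚ)), coeff_C_mul, map_sub, map_add, coeff_ez_pow, coeff_ezi_pow, h2,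
    coeff_C]
  norm_num [Nat.factorial]
  ring

theorem coeff_four_HX (N : ℕ) : coeff 4 (coeff N HX) = (1 / 12 : ℚ) * coeff N (sf ℚ 5) := by
  rw [HX, coeff_lam, sf, coeff_lam, map_sum, Finset.mul_sum]
  refine Finset.sum_congr rfl fun d _ => ?_
  have h2 : (2 : EE) = C (2 : ℚ) := (map_ofNat (C (R := ℚ)) 2).symm
  rw [← map_natCast (C (R := ℚ)), coeff_C_mul, map_sub, map_add, coeff_ez_pow, coeff_ezi_pow, h2,
    coeff_C]
  norm_num [Nat.factorial]
  ring

theorem coeff_four_swap_Xt : coeff 4 (swap Xt) = C (coeff 4 pX) + sf ℚ 3 := by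
  ext N
  rw [coeff_swap, coeff_Xt, map_add, map_add, coeff_C]
  have h : coeff 4 ((qX : EE) ^ 2 * coeff N HX) = coeff N (sf ℚ 3) := by
    rw [coeff_X_pow_mul', if_pos (by norm_num), coeff_two_HX]
  rw [h]
  split_ifs <;> simp

theorem coeff_six_swap_Xt :
    coeff 6 (swap Xt) = C (coeff 6 pX) + C (1 / 12 : ℚ) * sf ℚ 5 := by
  ext N
  rw [coeff_swap, coeff_Xt, map_add, map_add, coeff_C, coeff_C_mul]
  have h : coeff 6 ((qX : EE) ^ 2 * coeff N HX) = (1 / 12 : ℚ) * coeff N (sf ℚ 5) := by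
    rw [coeff_X_pow_mul', if_pos (by norm_num), coeff_four_HX]
  rw [h]
  split_ifs <;> simp

theorem constantCoeff_sf (k : ℕ) : constantCoeff (sf ℚ k) = 0 := by
  rw [← coeff_zero_eq_constantCoeff_apply, sf, coeff_zero_lam]

theorem constantCoeff_cf : constantCoeff (cf ℚ) = 0 := by
  have ht : constantCoeff (tf ℚ) = 0 := by
    rw [← coeff_zero_eq_constantCoeff_apply, tf, coeff_lam2]; simp
  rw [cf, map_sub, map_sub, map_mul, map_mul, map_mul, map_pow, constantCoeff_sf, ht]
  simp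

/-- **Ramanujan's identity** `c = -10 s₃` (equivalently `q dP/dq = (P² - Q)/12`). -/
theorem cf_eq : cf ℚ = -10 * sf ℚ 3 := by
  obtain ⟨-, -, -, h24, -⟩ :=
    Ode.low_coeffs hS_EE (swap Xt) (swap Zt) (swap Wt) (cf ℚ) swap_ha swap_hb swap_hc swap_h0
  rw [coeff_four_swap_Xt] at h24
  have h0 := congrArg (constantCoeff (R := ℚ)) h24
  simp only [map_mul, map_sub, map_add, map_one, map_ofNat, constantCoeff_cf, constantCoeff_sf,
    constantCoeff_C, mul_zero, add_zero] at h0
  have hp : coeff 4 pX = 1 / 240 := by linarith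
  rw [hp] at h24
  have hC : (C (1 / 240 : ℚ) : EE) * 240 = 1 := by
    rw [← map_ofNat (C (R := ℚ)) 240, ← map_mul]; norm_num
  have hz : cf ℚ - -10 * sf ℚ 3 = 0 := by
    apply hS_EE 24 (by norm_num)
    push_cast
    linear_combination h24 - hC
  exact sub_eq_zero.mp hz

/-- `12 ∑ a6Coeff = 5 s₃ + 7 s₅`. -/
theorem twelve_a6f {R : Type*} [CommRing R] : 12 * a6f R = -(5 * sf R 3 + 7 * sf R 5) := by
  have h12 : (12 : R⟦X⟧) = C (12 : R) := (map_ofNat (C (R := R)) 12).symm
  have h5 : (5 : R⟦X⟧) = C (5 : R) := (map_ofNat (C (R := R)) 5).symm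
  have h7 : (7 : R⟦X⟧) = C (7 : R) := (map_ofNat (C (R := R)) 7).symm
  ext N
  rw [a6f, sf, sf, h12, h5, h7, map_neg, map_add, coeff_C_mul, coeff_C_mul, coeff_C_mul, map_neg,
    coeff_lam, coeff_lam, coeff_lam, mul_neg, Finset.mul_sum, Finset.mul_sum, Finset.mul_sum,
    ← Finset.sum_add_distrib, ← Finset.sum_neg_distrib, ← Finset.sum_neg_distrib]
  refine Finset.sum_congr rfl fun d _ => ?_
  have h := congrArg (Nat.cast (R := R)) (a6Coeff_spec d)
  push_cast at h
  linear_combination (-1 : R) * h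

/-- the first integral on the swapped side, with the constant identified. -/
theorem swap_first_integral :
    swap Zt ^ 2 = 4 * swap Xt ^ 3 + qX ^ 2 * swap Xt ^ 2 + 2 * qX ^ 4 * C (cf ℚ) * swap Xt +
      qX ^ 6 * C (4 * a6f ℚ) := by
  obtain ⟨e6, h1, h2⟩ :=
    Ode.first_integral hS_EE (swap Xt) (swap Zt) (swap Wt) (cf ℚ) swap_ha swap_hb swap_hc swap_h0
  -- the `q⁰`-coefficient of `e6` vanishes (nodal cubic)
  have hc0 : constantCoeff e6 = 0 := by
    have h := congrArg eps h1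
    simp only [map_add, map_mul, map_pow, map_ofNat, eps_swap, coeff_zero_Xt, coeff_zero_Zt] at h
    have hX : eps (qX : PP) = qX := by rw [eps, map_X]
    have hC : ∀ s : EE, eps (C s) = C (constantCoeff s) := fun s => by rw [eps, map_C]
    rw [hX, hC, hC, constantCoeff_cf, map_zero, nodal] at h
    have hz : (qX : EE) ^ 6 * C (constantCoeff e6) = 0 := by
      linear_combination (-1 : EE) * h
    rcases mul_eq_zero.mp hz with h' | h'
    · exact absurd h' (pow_ne_zero 6 PowerSeries.X_ne_zero)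
    · have := congrArg (constantCoeff (R := ℚ)) h'
      rwa [constantCoeff_C, map_zero] at this
  rw [coeff_six_swap_Xt, cf_eq] at h2
  have h0 := congrArg (constantCoeff (R := ℚ)) h2
  simp only [map_mul, map_sub, map_add, map_neg, map_one, map_ofNat, constantCoeff_sf,
    constantCoeff_C, mul_zero, add_zero, hc0] at h0
  have hp : coeff 6 pX = -1 / 6048 := by linarith
  rw [hp] at h2
  have he : e6 = 4 * a6f ℚ := by
    have hz : e6 - 4 * a6f ℚ = 0 := by
      apply hS_EE 216 (by norm_num)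
      have hC1 : (C (-1 / 6048 : ℚ) : EE) * 6048 = -1 := by
        rw [← map_ofNat (C (R := ℚ)) 6048, ← map_mul]; norm_num
      have hC2 : (C (1 / 12 : ℚ) : EE) * 12 = 1 := by
        rw [← map_ofNat (C (R := ℚ)) 12, ← map_mul]; norm_num
      have h12 := twelve_a6f (R := ℚ)
      push_cast
      linear_combination h2 - hC1 - (504 * sf ℚ 5) * hC2 - 72 * h12
    exact sub_eq_zero.mp hz
  rw [← he]
  exact h1

/-- the first integral in `E⟦q⟧`. -/
theorem first_integral_PP :
    Zt ^ 2 = 4 * Xt ^ 3 + C (qX ^ 2) * Xt ^ 2 + 2 * C (qX ^ 4) * cf EE * Xt +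
      C (qX ^ 6) * (4 * a6f EE) := by
  apply swap_injective
  have ha6 : a6f EE = PowerSeries.map (C (R := ℚ)) (a6f ℚ) := (map_a6f (C (R := ℚ))).symm
  have h4 : (4 : PP) * PowerSeries.map (C (R := ℚ)) (a6f ℚ) =
      PowerSeries.map (C (R := ℚ)) (4 * a6f ℚ) := by
    rw [map_mul, map_ofNat]
  rw [ha6, h4, cf_EE]
  have p2 : swap (Zt ^ 2) = swap Zt ^ 2 := map_pow _ _ _
  have p3 : swap (Xt ^ 3) = swap Xt ^ 3 := map_pow _ _ _
  have p4 : swap (Xt ^ 2) = swap Xt ^ 2 := map_pow _ _ _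
  simp only [map_add, map_mul, map_ofNat, swap_C_X_pow, swap_map_C, p2, p3, p4]
  have h := swap_first_integral
  rw [map_mul (C (R := EE)), map_ofNat] at h
  exact h

/-! ### the generic Tate equation over `F` -/

theorem cf_FF : cf FF = -10 * sf FF 3 := by
  rw [← map_cf (iota.comp (C (R := ℚ))), cf_eq, map_mul, map_neg, map_ofNat, map_sf]

theorem natCast_ne_zero_FF {n : ℕ} (hn : n ≠ 0) : ((n : ℕ) : FF⟦X⟧) ≠ 0 := by
  intro h
  have h1 := congrArg (constantCoeff (R := FF)) h
  rw [map_natCast, map_zero] at h1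
  have h2 : iota ((n : ℕ) : EE) = 0 := by rw [map_natCast]; exact h1
  have h3 := iota_injective (h2.trans (map_zero iota).symm)
  have h4 := congrArg (constantCoeff (R := ℚ)) h3
  rw [map_natCast, map_zero] at h4
  exact hn (by exact_mod_cast h4)

/-- `Z² = 4X³ + X² + 4a₄X + 4a₆` at the generic point. -/
theorem generic_Z : Zf uF uiF tF ^ 2 = 4 * Xf uF uiF tF ^ 3 + Xf uF uiF tF ^ 2 +
    4 * a4f FF * Xf uF uiF tF + 4 * a6f FF := by
  have h := congrArg (PowerSeries.map iota) first_integral_PP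
  simp only [map_add, map_mul, map_pow, map_ofNat, map_C, map_cf, map_a6f, map_Xt, map_Zt] at h
  rw [cf_FF] at h
  have hne : (C (iota (qX : EE)) : FF⟦X⟧) ^ 6 ≠ 0 := by
    apply pow_ne_zero
    intro h0
    have := congrArg (constantCoeff (R := FF)) h0
    rw [constantCoeff_C, map_zero] at this
    exact iota_X_ne_zero this
  have hz : (C (iota (qX : EE)) : FF⟦X⟧) ^ 6 * (Zf uF uiF tF ^ 2 - (4 * Xf uF uiF tF ^ 3 +
      Xf uF uiF tF ^ 2 + 4 * a4f FF * Xf uF uiF tF + 4 * a6f FF)) = 0 := by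
    rw [a4f]
    linear_combination h
  rcases mul_eq_zero.mp hz with h' | h'
  · exact absurd h' hne
  · exact sub_eq_zero.mp h'

/-- **the Tate equation at the generic point** `u = e^z`. -/
theorem generic_eq : Yf uF uiF tF ^ 2 + Xf uF uiF tF * Yf uF uiF tF =
    Xf uF uiF tF ^ 3 + a4f FF * Xf uF uiF tF + a6f FF := by
  have hZ := generic_Z
  rw [Zf_eq uF uiF tF one_sub_uF_mul_tF] at hZ
  have h4 : ((4 : ℕ) : FF⟦X⟧) * (Yf uF uiF tF ^ 2 + Xf uF uiF tF * Yf uF uiF tF -
      (Xf uF uiF tF ^ 3 + a4f FF * Xf uF uiF tF + a6f FF)) = 0 := by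
    push_cast
    linear_combination hZ
  rcases mul_eq_zero.mp h4 with h' | h'
  · exact absurd h' (natCast_ne_zero_FF (by norm_num))
  · exact sub_eq_zero.mp h'

end Fermat.Agent.GZ.Tate.T1Eq
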