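/-
GATE-Z (S15) / [MOD-beta] (T1-EQ), file 3 (helper22): infinite sums in `R⟦X⟧` over a DISCRETE
ring `R` (product topology): summability from `X`-adic weights, Fubini, the three-way split of
`ℕ × ℕ`, and the Lambert sums of the closed forms of `Closed.lean`.
-/
import Fermat.Agent.GZ.Tate.T1Eq.Closed

set_option autoImplicit false

noncomputable section

namespace Fermat.Agent.GZ.Tate.T1Eq

open PowerSeries
open scoped PowerSeries.WithPiTopology
open PowerSeries.WithPiTopology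

local notation "qX" => PowerSeries.X

variable {R : Type*} [CommRing R] [TopologicalSpace R] [DiscreteTopology R]

/-! ### summability from weights -/

theorem summable_of_dvd {ι : Type*} (wt : ι → ℕ) (hwt : ∀ N, {i | wt i ≤ N}.Finite)
    (f : ι → R⟦X⟧) (h : ∀ i, qX ^ wt i ∣ f i) : Summable f := by
  rw [summable_iff_summable_coeff]
  intro N
  apply summable_of_hasFiniteSupport
  refine (hwt N).subset ?_
  intro i hi
  simp only [Function.mem_support] at hi
  by_contra hlt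
  simp only [Set.mem_setOf_eq, not_le] at hlt
  exact hi (X_pow_dvd_iff.mp (h i) N hlt)

theorem summable_nat {f : ℕ → R⟦X⟧} (h : ∀ m, qX ^ m ∣ f m) : Summable f :=
  summable_of_dvd (fun m => m) (fun N => Set.finite_Iic N) f h

theorem finite_add_le (N : ℕ) : {p : ℕ × ℕ | p.1 + p.2 ≤ N}.Finite := by
  refine ((Set.finite_Iic N).prod (Set.finite_Iic N)).subset ?_
  rintro ⟨a, b⟩ h
  simp only [Set.mem_setOf_eq] at h
  exact ⟨by simp only [Set.mem_Iic]; omega, by simp only [Set.mem_Iic]; omega⟩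

theorem summable_nat2 {f : ℕ × ℕ → R⟦X⟧} (h : ∀ p, qX ^ (p.1 + p.2) ∣ f p) : Summable f :=
  summable_of_dvd (fun p : ℕ × ℕ => p.1 + p.2) finite_add_le f h

theorem coeff_tsum {ι : Type*} {f : ι → R⟦X⟧} (hf : Summable f) (N : ℕ) :
    coeff N (∑' i, f i) = ∑' i, coeff N (f i) :=
  ((hf.hasSum.map (coeff N) (continuous_coeff R N)).tsum_eq).symm

theorem dvd_tsum {ι : Type*} {f : ι → R⟦X⟧} (n : ℕ) (h : ∀ i, qX ^ n ∣ f i) :
    qX ^ n ∣ ∑' i, f i := by
  by_cases hf : Summable f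
  · rw [X_pow_dvd_iff]
    intro m hm
    rw [coeff_tsum hf]
    have : ∀ i, coeff m (f i) = 0 := fun i => X_pow_dvd_iff.mp (h i) m hm
    simp [this]
  · rw [tsum_eq_zero_of_not_summable hf]
    exact dvd_zero _

theorem dvd_of_dvd_add {a b : ℕ} {f : R⟦X⟧} (h : qX ^ (a + b) ∣ f) : qX ^ b ∣ f :=
  (pow_dvd_pow _ (Nat.le_add_left b a)).trans h

theorem dvd_of_dvd_add' {a b : ℕ} {f : R⟦X⟧} (h : qX ^ (a + b) ∣ f) : qX ^ a ∣ f :=
  (pow_dvd_pow _ (Nat.le_add_right a b)).trans h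

/-- Fubini, first index outside. -/
theorem tsum_nat2 {f : ℕ × ℕ → R⟦X⟧} (h : ∀ p, qX ^ (p.1 + p.2) ∣ f p) :
    ∑' p, f p = ∑' m, ∑' k, f (m, k) :=
  (summable_nat2 h).tsum_prod' fun m => summable_nat fun k => dvd_of_dvd_add (h (m, k))

/-- Fubini, second index outside. -/
theorem tsum_nat2' {f : ℕ × ℕ → R⟦X⟧} (h : ∀ p, qX ^ (p.1 + p.2) ∣ f p) :
    ∑' p, f p = ∑' k, ∑' m, f (m, k) := by
  rw [← (Equiv.prodComm ℕ ℕ).tsum_eq f]
  exact tsum_nat2 (f := fun p : ℕ × ℕ => f (p.2, p.1)) fun p => by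
    rw [add_comm]; exact h (p.2, p.1)

/-! ### the three-way split of `ℕ × ℕ` -/

/-- diagonal / above / below. -/
def triEquiv : ℕ ⊕ ((ℕ × ℕ) ⊕ (ℕ × ℕ)) ≃ ℕ × ℕ where
  toFun
    | .inl m => (m, m)
    | .inr (.inl p) => (p.1, p.1 + p.2 + 1)
    | .inr (.inr p) => (p.1 + p.2 + 1, p.1)
  invFun p :=
    if p.1 = p.2 then .inl p.1
    else if p.1 < p.2 then .inr (.inl (p.1, p.2 - p.1 - 1))
    else .inr (.inr (p.2, p.1 - p.2 - 1))
  left_inv := by
    rintro (m | ⟨m, k⟩ | ⟨m, k⟩)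
    · simp
    · have h1 : ¬ m = m + k + 1 := by omega
      have h2 : m < m + k + 1 := by omega
      have h3 : m + k + 1 - m - 1 = k := by omega
      simp [h1, h2, h3]
    · have h1 : ¬ m + k + 1 = m := by omega
      have h2 : ¬ m + k + 1 < m := by omega
      have h3 : m + k + 1 - m - 1 = k := by omega
      simp [h1, h2, h3]
  right_inv := by
    rintro ⟨a, b⟩
    by_cases h1 : a = b
    · subst h1; simp
    · by_cases h2 : a < b
      · have h3 : a + (b - a - 1) + 1 = b := by omega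
        simp [h1, h2, h3]
      · have h3 : b + (a - b - 1) + 1 = a := by omega
        simp [h1, h2, h3]

/-- the square of a sum: diagonal plus twice the part above the diagonal. -/
theorem tsum_sq {x : ℕ → R⟦X⟧} (hx : ∀ m, qX ^ m ∣ x m) :
    (∑' m, x m) ^ 2 = ∑' m, x m ^ 2 + 2 * ∑' p : ℕ × ℕ, x p.1 * x (p.1 + p.2 + 1) := by
  have hS : Summable x := summable_nat hx
  have hP : Summable fun p : ℕ × ℕ => x p.1 * x p.2 :=
    summable_nat2 fun p => by rw [pow_add]; exact mul_dvd_mul (hx p.1) (hx p.2)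
  have hU : Summable fun p : ℕ × ℕ => x p.1 * x (p.1 + p.2 + 1) :=
    summable_nat2 fun p => (dvd_of_dvd_add (a := 1) (dvd_of_dvd_add' (b := p.1) (by
      have := mul_dvd_mul (hx p.1) (hx (p.1 + p.2 + 1))
      rw [← pow_add] at this
      have e : p.1 + (p.1 + p.2 + 1) = 1 + (p.1 + p.2) + p.1 := by ring
      rwa [e] at this)))
  have hL : Summable fun p : ℕ × ℕ => x (p.1 + p.2 + 1) * x p.1 := by
    simpa only [mul_comm] using hU
  have hD : Summable fun m : ℕ => x m * x m :=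
    summable_nat fun m => dvd_mul_of_dvd_left (hx m) _
  rw [sq, hS.tsum_mul_tsum hS hP]
  have hsum : HasSum (fun s => (fun p : ℕ × ℕ => x p.1 * x p.2) (triEquiv s))
      (∑' m : ℕ, x m * x m + (∑' p : ℕ × ℕ, x p.1 * x (p.1 + p.2 + 1) +
        ∑' p : ℕ × ℕ, x (p.1 + p.2 + 1) * x p.1)) := by
    refine HasSum.sum (f := fun s => (fun p : ℕ × ℕ => x p.1 * x p.2) (triEquiv s)) ?_ ?_
    · exact hD.hasSum
    · refine HasSum.sum
        (f := (fun s => (fun p : ℕ × ℕ => x p.1 * x p.2) (triEquiv s)) ∘ Sum.inr) ?_ ?_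
      · exact hU.hasSum
      · exact hL.hasSum
  have hsum' := (triEquiv.hasSum_iff (f := fun p : ℕ × ℕ => x p.1 * x p.2)).mp hsum
  rw [hsum'.tsum_eq]
  have e4 : ∑' p : ℕ × ℕ, x (p.1 + p.2 + 1) * x p.1 = ∑' p : ℕ × ℕ, x p.1 * x (p.1 + p.2 + 1) :=
    tsum_congr fun p => mul_comm _ _
  rw [e4, two_mul]
  congr 1
  exact tsum_congr fun m => (sq (x m)).symm

/-! ### Lambert sums -/

theorem hasSum_lam2 (F : ℕ → R⟦X⟧) (c : ℕ → ℕ → R) (hc0 : ∀ m, c m 0 = 0)
    (hF : ∀ m N, coeff N (F m) = if (m + 1) ∣ N then c (m + 1) (N / (m + 1)) else 0) :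
    HasSum F (lam2 c) := by
  rw [hasSum_iff_hasSum_coeff]
  intro N
  rw [coeff_lam2, Nat.sum_divisorsAntidiagonal c]
  rcases Nat.eq_zero_or_pos N with rfl | hN
  · simp only [Nat.divisors_zero, Finset.sum_empty]
    have : (fun m => coeff 0 (F m)) = fun _ => (0 : R) := by
      funext m; rw [hF]; simp [hc0]
    rw [this]
    exact hasSum_zero
  · have hsupp : ∀ m ∉ Finset.range N, coeff N (F m) = 0 := by
      intro m hm
      rw [hF, if_neg]
      intro hd
      exact hm (Finset.mem_range.mpr (Nat.lt_of_succ_le (Nat.le_of_dvd hN hd)))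
    have h := hasSum_sum_of_ne_finset_zero (L := SummationFilter.unconditional ℕ)
      (f := fun m => coeff N (F m)) hsupp
    convert h using 1
    have hdiv : N.divisors = (Finset.Ico 1 (N + 1)).filter (· ∣ N) := rfl
    rw [hdiv, Finset.sum_filter, Finset.sum_Ico_eq_sum_range]
    refine Finset.sum_congr (by simp) fun m _ => ?_
    rw [hF, add_comm 1 m]

variable (a : R)

theorem hasSum_xT : HasSum (fun m => xT (pt a (m + 1))) (lam fun d => (d : R) * a ^ d) := by
  refine hasSum_lam2 _ _ (by simp) fun m N => ?_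
  rw [coeff_xT_pt a (Nat.succ_ne_zero m), mul_comm]

theorem hasSum_zT : HasSum (fun m => zT (pt a (m + 1))) (lam fun d => (d : R) ^ 2 * a ^ d) := by
  refine hasSum_lam2 _ _ (by simp) fun m N => ?_
  rw [coeff_zT_pt a (Nat.succ_ne_zero m), mul_comm]

theorem hasSum_wT : HasSum (fun m => wT (pt a (m + 1))) (lam fun d => (d : R) ^ 3 * a ^ d) := by
  refine hasSum_lam2 _ _ (by simp) fun m N => ?_
  rw [coeff_wT_pt a (Nat.succ_ne_zero m), mul_comm]

theorem hasSum_tf :
    HasSum (fun k : ℕ => C ((k + 1 : ℕ) : R) * zT (pt 1 (k + 1))) (tf R) := by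
  refine hasSum_lam2 _ _ (by simp) fun m N => ?_
  rw [coeff_C_mul, coeff_zT_pt 1 (Nat.succ_ne_zero m)]
  split_ifs <;> simp

end Fermat.Agent.GZ.Tate.T1Eq
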