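/-
GATE-Z (S15) / [MOD-beta] (T1-EQ), file 4 (helper22): the QUADRATIC identity
`W = 6 X² + X + c` of the formal Tate series, `c = 2 s₁ - 24 s₁² - 12 ∑ N σ₁(N) X^N` a constant
(no `u`), for every commutative ring `R` and `u ui t : R` with `u * ui = 1`, `(1 - u) * t = 1`.

Proof: partial fractions for `xT a * xT b` (fixed ratio resp. fixed product) in terms of the
geometric inverses (`pf1`, `pf2`), summed over the two orbits `u X^m`, `u⁻¹ X^(m+1)`; the partial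
sums telescope and cancel between `A²`, `B²` and `2AB`.
-/
import Fermat.Agent.GZ.Tate.T1Eq.Sums

set_option autoImplicit false

noncomputable section

namespace Fermat.Agent.GZ.Tate.T1Eq

open PowerSeries
open scoped PowerSeries.WithPiTopology
open PowerSeries.WithPiTopology

local notation "qX" => PowerSeries.X

section Ring

variable {S : Type*} [CommRing S]

/-- partial fractions, fixed ratio: `i = g(a)`, `k = g(c)`, `j = g(ca)`. -/
theorem pf1 (i j k : S) (h : j * (i + k - 1) = i * k) :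
    (i ^ 2 - i) * (j ^ 2 - j) = (k ^ 2 - k) * ((i ^ 2 - i) + (j ^ 2 - j)) -
      (2 * k ^ 3 - 3 * k ^ 2 + k) * ((i - 1) - (j - 1)) := by
  linear_combination ((i - k) * j + (k - 1) * (i - 2 * k)) * h

/-- partial fractions, fixed product: `i = g(a)`, `k = g(b)`, `j = g(ab)`. -/
theorem pf2 (i j k : S) (h : j * (i + k - 1) = i * k) :
    (i ^ 2 - i) * (k ^ 2 - k) = (j ^ 2 - j) * ((i ^ 2 - i) + (k ^ 2 - k)) +
      (2 * j ^ 3 - 3 * j ^ 2 + j) * ((i - 1) + (k - 1) + 1) := by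
  linear_combination (-(2 * j ^ 2 - 3 * j + 1) - (i + k) * j - (i * k - i - k)) * h

/-- the relation between the geometric inverses at `a`, `c`, `a c`. -/
theorem inv_rel (a c i k j : S) (hi : (1 - a) * i = 1) (hk : (1 - c) * k = 1)
    (hj : (1 - a * c) * j = 1) : j * (i + k - 1) = i * k := by
  have h1 : i * k * (1 - a * c) = i + k - 1 := by
    linear_combination (c * k) * hi + (i - 1) * hk
  linear_combination (-j) * h1 + (i * k) * hj

end Ring

variable {R : Type*} [CommRing R] [TopologicalSpace R] [DiscreteTopology R]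

/-! ### one orbit -/

section Orbit

variable (g γ : ℕ → R⟦X⟧) (hg : ∀ m, qX ^ m ∣ g m - 1) (hγ : ∀ k, qX ^ (k + 1) ∣ γ k - 1)

include hg in
theorem dvd_x (m : ℕ) : qX ^ m ∣ g m ^ 2 - g m := by
  have : g m ^ 2 - g m = (g m - 1) * g m := by ring
  rw [this]; exact dvd_mul_of_dvd_left (hg m) _

include hγ in
theorem dvd_xi (k : ℕ) : qX ^ (k + 1) ∣ γ k ^ 2 - γ k := by
  have : γ k ^ 2 - γ k = (γ k - 1) * γ k := by ring
  rw [this]; exact dvd_mul_of_dvd_left (hγ k) _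

include hγ in
theorem dvd_zeta (k : ℕ) : qX ^ (k + 1) ∣ 2 * γ k ^ 3 - 3 * γ k ^ 2 + γ k := by
  have : 2 * γ k ^ 3 - 3 * γ k ^ 2 + γ k = (γ k - 1) * (γ k * (2 * γ k - 1)) := by ring
  rw [this]; exact dvd_mul_of_dvd_left (hγ k) _

include hg hγ in
/-- **(L1)** the square of one orbit sum. -/
theorem orbit_sq (hρ : ∀ m k, g (m + k + 1) * (g m + γ k - 1) = g m * γ k) :
    (∑' m, (g m ^ 2 - g m)) ^ 2 = ∑' m, (g m ^ 2 - g m) ^ 2 +
      2 * ∑' k, ((γ k ^ 2 - γ k) * (2 * ∑' m, (g m ^ 2 - g m) -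
          ∑ m ∈ Finset.range (k + 1), (g m ^ 2 - g m)) -
        (2 * γ k ^ 3 - 3 * γ k ^ 2 + γ k) * ∑ m ∈ Finset.range (k + 1), (g m - 1)) := by
  set x : ℕ → R⟦X⟧ := fun m => g m ^ 2 - g m with hxdef
  set l : ℕ → R⟦X⟧ := fun m => g m - 1 with hldef
  set ξ : ℕ → R⟦X⟧ := fun k => γ k ^ 2 - γ k with hξdef
  set ζ : ℕ → R⟦X⟧ := fun k => 2 * γ k ^ 3 - 3 * γ k ^ 2 + γ k with hζdef
  have hx : ∀ m, qX ^ m ∣ x m := dvd_x g hg
  have hξ : ∀ k, qX ^ (k + 1) ∣ ξ k := dvd_xi γ hγ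
  have hζ : ∀ k, qX ^ (k + 1) ∣ ζ k := dvd_zeta γ hγ
  have hSx : Summable x := summable_nat hx
  have hSl : Summable l := summable_nat hg
  rw [tsum_sq hx]
  congr 2
  -- rewrite the terms by partial fractions
  have e1 : ∀ p : ℕ × ℕ, x p.1 * x (p.1 + p.2 + 1) =
      ξ p.2 * (x p.1 + x (p.1 + p.2 + 1)) - ζ p.2 * (l p.1 - l (p.1 + p.2 + 1)) := fun p =>
    pf1 (g p.1) (g (p.1 + p.2 + 1)) (γ p.2) (hρ p.1 p.2)
  rw [tsum_congr e1]
  have hdvd : ∀ p : ℕ × ℕ, qX ^ (p.1 + p.2) ∣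
      ξ p.2 * (x p.1 + x (p.1 + p.2 + 1)) - ζ p.2 * (l p.1 - l (p.1 + p.2 + 1)) := by
    intro p
    have hx1 : qX ^ p.1 ∣ x (p.1 + p.2 + 1) :=
      (pow_dvd_pow _ (by omega)).trans (hx (p.1 + p.2 + 1))
    have hl1 : qX ^ p.1 ∣ l (p.1 + p.2 + 1) :=
      (pow_dvd_pow _ (by omega)).trans (hg (p.1 + p.2 + 1))
    have hξ' : qX ^ p.2 ∣ ξ p.2 := (pow_dvd_pow _ (by omega)).trans (hξ p.2)
    have hζ' : qX ^ p.2 ∣ ζ p.2 := (pow_dvd_pow _ (by omega)).trans (hζ p.2)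
    have hpow : (qX : R⟦X⟧) ^ (p.1 + p.2) = qX ^ p.2 * qX ^ p.1 := by rw [← pow_add, add_comm]
    rw [hpow]
    exact dvd_sub (mul_dvd_mul hξ' (dvd_add (hx p.1) hx1))
      (mul_dvd_mul hζ' (dvd_sub (hg p.1) hl1))
  rw [tsum_nat2' hdvd]
  refine tsum_congr fun k => ?_
  -- the inner sum over `m`
  have h1 : HasSum x (∑' m, x m) := hSx.hasSum
  have h2 : HasSum (fun m => x (m + (k + 1))) (∑' m, x m - ∑ m ∈ Finset.range (k + 1), x m) :=
    (hasSum_nat_add_iff' (k + 1)).mpr h1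
  have h3 : HasSum l (∑' m, l m) := hSl.hasSum
  have h4 : HasSum (fun m => l (m + (k + 1))) (∑' m, l m - ∑ m ∈ Finset.range (k + 1), l m) :=
    (hasSum_nat_add_iff' (k + 1)).mpr h3
  have h5 := ((h1.add h2).mul_left (ξ k)).sub ((h3.sub h4).mul_left (ζ k))
  have h6 : (fun m => ξ k * (x m + x (m + (k + 1))) - ζ k * (l m - l (m + (k + 1)))) =
      fun m => ξ (m, k).2 * (x (m, k).1 + x ((m, k).1 + (m, k).2 + 1)) -
        ζ (m, k).2 * (l (m, k).1 - l ((m, k).1 + (m, k).2 + 1)) := by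
    funext m; simp only [add_assoc]
  rw [← h6, h5.tsum_eq]
  ring

end Orbit

/-! ### two orbits -/

section TwoOrbits

variable (g g' γ : ℕ → R⟦X⟧) (hg : ∀ m, qX ^ m ∣ g m - 1) (hg' : ∀ m, qX ^ m ∣ g' m - 1)
  (hγ : ∀ k, qX ^ (k + 1) ∣ γ k - 1)

include hg hg' hγ in
/-- **(L2)** the product of the two orbit sums. -/
theorem orbit_mul (hρ : ∀ m n, γ (m + n) * (g m + g' n - 1) = g m * g' n) :
    (∑' m, (g m ^ 2 - g m)) * (∑' n, (g' n ^ 2 - g' n)) =
      ∑' k, ((γ k ^ 2 - γ k) * (∑ m ∈ Finset.range (k + 1), (g m ^ 2 - g m) +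
          ∑ m ∈ Finset.range (k + 1), (g' m ^ 2 - g' m)) +
        (2 * γ k ^ 3 - 3 * γ k ^ 2 + γ k) * (∑ m ∈ Finset.range (k + 1), (g m - 1) +
          ∑ m ∈ Finset.range (k + 1), (g' m - 1) + ((k + 1 : ℕ) : R⟦X⟧))) := by
  have hx : ∀ m, qX ^ m ∣ g m ^ 2 - g m := dvd_x g hg
  have hx' : ∀ m, qX ^ m ∣ g' m ^ 2 - g' m := dvd_x g' hg'
  have hP : Summable fun p : ℕ × ℕ => (g p.1 ^ 2 - g p.1) * (g' p.2 ^ 2 - g' p.2) :=
    summable_nat2 fun p => by rw [pow_add]; exact mul_dvd_mul (hx p.1) (hx' p.2)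
  rw [(summable_nat hx).tsum_mul_tsum_eq_tsum_sum_antidiagonal (summable_nat hx') hP]
  refine tsum_congr fun k => ?_
  have e1 : ∀ p ∈ Finset.HasAntidiagonal.antidiagonal k, (g p.1 ^ 2 - g p.1) * (g' p.2 ^ 2 - g' p.2) =
      (γ k ^ 2 - γ k) * ((g p.1 ^ 2 - g p.1) + (g' p.2 ^ 2 - g' p.2)) +
        (2 * γ k ^ 3 - 3 * γ k ^ 2 + γ k) * ((g p.1 - 1) + (g' p.2 - 1) + 1) := by
    intro p hp
    have hk : p.1 + p.2 = k := Finset.HasAntidiagonal.mem_antidiagonal.mp hp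
    have := pf2 (g p.1) (γ (p.1 + p.2)) (g' p.2) (hρ p.1 p.2)
    rwa [hk] at this
  rw [Finset.sum_congr rfl e1, Finset.sum_add_distrib, ← Finset.mul_sum, ← Finset.mul_sum,
    Finset.sum_add_distrib, Finset.sum_add_distrib, Finset.sum_add_distrib]
  have s1 : ∀ f : ℕ → R⟦X⟧, ∑ p ∈ Finset.HasAntidiagonal.antidiagonal k, f p.1 = ∑ m ∈ Finset.range (k + 1), f m :=
    fun f => by
      rw [Finset.Nat.sum_antidiagonal_eq_sum_range_succ (fun i _ => f i)]
  have s2 : ∀ f : ℕ → R⟦X⟧, ∑ p ∈ Finset.HasAntidiagonal.antidiagonal k, f p.2 = ∑ m ∈ Finset.range (k + 1), f m :=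
    fun f => by
      rw [← Finset.Nat.sum_antidiagonal_swap]
      exact s1 f
  rw [s1 fun m => g m ^ 2 - g m, s2 fun m => g' m ^ 2 - g' m, s1 fun m => g m - 1,
    s2 fun m => g' m - 1]
  simp

end TwoOrbits

end Fermat.Agent.GZ.Tate.T1Eq

namespace Fermat.Agent.GZ.Tate.T1Eq

open PowerSeries
open scoped PowerSeries.WithPiTopology
open PowerSeries.WithPiTopology

local notation "qX" => PowerSeries.X

/-! ### assembly -/

section Assembly

variable {R : Type*} [CommRing R] [TopologicalSpace R] [DiscreteTopology R]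
variable (u ui t : R) (hui : u * ui = 1) (ht : (1 - u) * t = 1)

/-- the orbit `u X^m`, `m ≥ 0`. -/
def gA (m : ℕ) : R⟦X⟧ := gv (C u * qX ^ m)

/-- the orbit `u⁻¹ X^(n+1)`, `n ≥ 0`. -/
def gB (n : ℕ) : R⟦X⟧ := gv (pt ui (n + 1))

variable (R) in
/-- the orbit `X^(k+1)`, `k ≥ 0`. -/
def gC (k : ℕ) : R⟦X⟧ := gv (pt 1 (k + 1))

include ht in
theorem isUnit_A (m : ℕ) : IsUnit (1 - (C u * qX ^ m : R⟦X⟧)) := by
  rcases Nat.eq_zero_or_pos m with rfl | hm
  · rw [pow_zero, mul_one]; exact isUnit_one_sub_C ht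
  · exact isUnit_one_sub_pt u hm.ne'

include ht in
theorem gA_spec (m : ℕ) : (1 - C u * qX ^ m) * gA u m = 1 := one_sub_mul_gv (isUnit_A u t ht m)

theorem gB_spec (n : ℕ) : (1 - pt ui (n + 1)) * gB ui n = 1 :=
  one_sub_mul_gv (isUnit_one_sub_pt ui (Nat.succ_ne_zero n))

theorem gC_spec (k : ℕ) : (1 - pt 1 (k + 1)) * gC R k = 1 :=
  one_sub_mul_gv (isUnit_one_sub_pt 1 (Nat.succ_ne_zero k))

include ht in
theorem dvd_gA (m : ℕ) : qX ^ m ∣ gA u m - 1 := by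
  have : gA u m - 1 = qX ^ m * (C u * gA u m) := by
    linear_combination gA_spec u t ht m
  rw [this]; exact dvd_mul_right _ _

theorem dvd_gB (n : ℕ) : qX ^ n ∣ gB ui n - 1 := by
  have : gB ui n - 1 = qX ^ n * (C ui * qX * gB ui n) := by
    have h := gB_spec ui n
    rw [pt, pow_succ] at h
    linear_combination h
  rw [this]; exact dvd_mul_right _ _

theorem dvd_gC (k : ℕ) : qX ^ (k + 1) ∣ gC R k - 1 := by
  have : gC R k - 1 = qX ^ (k + 1) * gC R k := by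
    have h := gC_spec (R := R) k
    rw [pt, map_one, one_mul] at h
    linear_combination h
  rw [this]; exact dvd_mul_right _ _

include ht in
theorem rel_AA (m k : ℕ) :
    gA u (m + k + 1) * (gA u m + gC R k - 1) = gA u m * gC R k := by
  refine inv_rel (C u * qX ^ m) (pt 1 (k + 1)) _ _ _ (gA_spec u t ht m) (gC_spec k) ?_
  have h := gA_spec u t ht (m + k + 1)
  have e : (C u * qX ^ m : R⟦X⟧) * pt 1 (k + 1) = C u * qX ^ (m + k + 1) := by
    rw [pt, map_one, one_mul, mul_assoc, ← pow_add, add_assoc]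
  rw [e]; exact h

theorem rel_BB (n k : ℕ) :
    gB ui (n + k + 1) * (gB ui n + gC R k - 1) = gB ui n * gC R k := by
  refine inv_rel (pt ui (n + 1)) (pt 1 (k + 1)) _ _ _ (gB_spec ui n) (gC_spec k) ?_
  have h := gB_spec ui (n + k + 1)
  have e : pt ui (n + 1) * pt 1 (k + 1) = pt ui (n + k + 1 + 1) := by
    rw [pt, pt, pt, map_one, one_mul, mul_assoc, ← pow_add]
    congr 2; ring
  rw [e]; exact h

include hui ht in
theorem rel_AB (m n : ℕ) :
    gC R (m + n) * (gA u m + gB ui n - 1) = gA u m * gB ui n := by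
  refine inv_rel (C u * qX ^ m) (pt ui (n + 1)) _ _ _ (gA_spec u t ht m) (gB_spec ui n) ?_
  have h := gC_spec (R := R) (m + n)
  have e : (C u * qX ^ m : R⟦X⟧) * pt ui (n + 1) = pt 1 (m + n + 1) := by
    rw [pt, pt, map_one, one_mul]
    calc (C u * qX ^ m : R⟦X⟧) * (C ui * qX ^ (n + 1)) = C (u * ui) * (qX ^ m * qX ^ (n + 1)) := by
          rw [map_mul]; ring
      _ = qX ^ (m + n + 1) := by rw [hui, map_one, one_mul, ← pow_add, add_assoc]
  rw [e]; exact h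


/-! #### identification of the sums -/

include ht in
theorem xT_C : xT (C u : R⟦X⟧) = C (u * t ^ 2) := by
  rw [xT, gv_C ht, ← map_pow, ← map_sub]
  congr 1
  linear_combination t * ht

include ht in
theorem wT_C : wT (C u : R⟦X⟧) = C (u * (1 + 4 * u + u ^ 2) * t ^ 4) := by
  have hut : u * t = t - 1 := by linear_combination (-1 : R) * ht
  rw [wT, gv_C ht]
  simp only [← map_pow, ← map_ofNat (C (R := R)), ← map_mul, ← map_sub, ← map_add]
  congr 1
  linear_combination (-(t ^ 3 + 4 * (u * t + t - 1) * t ^ 2 +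
    ((u * t) ^ 2 + u * t * (t - 1) + (t - 1) ^ 2) * t)) * hut

include ht in
theorem hasSum_A : HasSum (fun m => gA u m ^ 2 - gA u m)
    (C (u * t ^ 2) + lam fun d => (d : R) * u ^ d) := by
  have h0 : gA u 0 ^ 2 - gA u 0 = C (u * t ^ 2) := by
    show gv (C u * qX ^ 0) ^ 2 - gv (C u * qX ^ 0) = _
    rw [pow_zero, mul_one]; exact xT_C u t ht
  rw [← hasSum_nat_add_iff' 1]
  simp only [Finset.sum_range_one, h0, add_sub_cancel_left]
  exact hasSum_xT u

theorem hasSum_B : HasSum (fun n => gB ui n ^ 2 - gB ui n) (lam fun d => (d : R) * ui ^ d) :=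
  hasSum_xT ui

theorem hasSum_S1 : HasSum (fun k => gC R k ^ 2 - gC R k) (sf R 1) := by
  have h := hasSum_xT (1 : R)
  simp only [one_pow, mul_one] at h
  show HasSum (fun k => xT (pt 1 (k + 1))) (lam fun d => (d : R) ^ 1)
  simp only [pow_one]
  exact h

theorem hasSum_T : HasSum (fun k : ℕ => ((k + 1 : ℕ) : R⟦X⟧) *
    (2 * gC R k ^ 3 - 3 * gC R k ^ 2 + gC R k)) (tf R) := by
  have h := hasSum_tf (R := R)
  have e : (fun k : ℕ => C ((k + 1 : ℕ) : R) * zT (pt 1 (k + 1))) = fun k : ℕ =>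
      ((k + 1 : ℕ) : R⟦X⟧) * (2 * gC R k ^ 3 - 3 * gC R k ^ 2 + gC R k) := by
    funext k
    rw [map_natCast]; rfl
  rwa [e] at h

include ht in
theorem hasSum_WA : HasSum (fun m => wT (C u * qX ^ m : R⟦X⟧))
    (C (u * (1 + 4 * u + u ^ 2) * t ^ 4) + lam fun d => (d : R) ^ 3 * u ^ d) := by
  have h0 : wT (C u * qX ^ 0 : R⟦X⟧) = C (u * (1 + 4 * u + u ^ 2) * t ^ 4) := by
    rw [pow_zero, mul_one]; exact wT_C u t ht
  rw [← hasSum_nat_add_iff' 1]
  simp only [Finset.sum_range_one, h0, add_sub_cancel_left]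
  exact hasSum_wT u

theorem hasSum_WB : HasSum (fun n => wT (pt ui (n + 1))) (lam fun d => (d : R) ^ 3 * ui ^ d) :=
  hasSum_wT ui


/-! #### the quadratic identity -/

include hui ht in
theorem Wf_eq_top : Wf u ui t = 6 * Xf u ui t ^ 2 + Xf u ui t + cf R := by
  -- abbreviations
  set ξ : ℕ → R⟦X⟧ := fun k => gC R k ^ 2 - gC R k with hξ
  set ζ : ℕ → R⟦X⟧ := fun k => 2 * gC R k ^ 3 - 3 * gC R k ^ 2 + gC R k with hζ
  set xA : ℕ → R⟦X⟧ := fun m => gA u m ^ 2 - gA u m with hxA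
  set xB : ℕ → R⟦X⟧ := fun m => gB ui m ^ 2 - gB ui m with hxB
  set lA : ℕ → R⟦X⟧ := fun m => gA u m - 1 with hlA
  set lB : ℕ → R⟦X⟧ := fun m => gB ui m - 1 with hlB
  have hdA := dvd_gA u t ht
  have hdB := dvd_gB ui
  have hdC := dvd_gC (R := R)
  have hdξ : ∀ k, qX ^ k ∣ ξ k := fun k =>
    (pow_dvd_pow _ (Nat.le_succ k)).trans (dvd_xi (gC R) hdC k)
  have hdζ : ∀ k, qX ^ k ∣ ζ k := fun k =>
    (pow_dvd_pow _ (Nat.le_succ k)).trans (dvd_zeta (gC R) hdC k)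
  -- the sums
  have hA := hasSum_A u t ht
  have hB := hasSum_B ui
  have hS := hasSum_S1 (R := R)
  have hT := hasSum_T (R := R)
  have hWA := hasSum_WA u t ht
  have hWB := hasSum_WB ui
  set A : R⟦X⟧ := ∑' m, xA m with hAdef
  set B : R⟦X⟧ := ∑' m, xB m with hBdef
  have hAeq : A = C (u * t ^ 2) + lam fun d => (d : R) * u ^ d := hA.tsum_eq
  have hBeq : B = lam fun d => (d : R) * ui ^ d := hB.tsum_eq
  have hSeq : ∑' k, ξ k = sf R 1 := hS.tsum_eq
  have hTeq : ∑' k : ℕ, ((k + 1 : ℕ) : R⟦X⟧) * ζ k = tf R := hT.tsum_eq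
  -- the three quadratic expansions
  have h1 := orbit_sq (gA u) (gC R) hdA hdC (rel_AA u t ht)
  have h2 := orbit_sq (gB ui) (gC R) hdB hdC (rel_BB ui)
  have h3 := orbit_mul (gA u) (gB ui) (gC R) hdA hdB hdC (rel_AB u ui t hui ht)
  -- the three families
  set a : ℕ → R⟦X⟧ := fun k => ξ k * (2 * A - ∑ m ∈ Finset.range (k + 1), xA m) -
    ζ k * ∑ m ∈ Finset.range (k + 1), lA m with ha
  set b : ℕ → R⟦X⟧ := fun k => ξ k * (2 * B - ∑ m ∈ Finset.range (k + 1), xB m) -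
    ζ k * ∑ m ∈ Finset.range (k + 1), lB m with hb
  set c : ℕ → R⟦X⟧ := fun k => ξ k * (∑ m ∈ Finset.range (k + 1), xA m +
      ∑ m ∈ Finset.range (k + 1), xB m) +
    ζ k * (∑ m ∈ Finset.range (k + 1), lA m + ∑ m ∈ Finset.range (k + 1), lB m +
      ((k + 1 : ℕ) : R⟦X⟧)) with hc
  have hsa : Summable a := summable_nat fun k =>
    dvd_sub (dvd_mul_of_dvd_left (hdξ k) _) (dvd_mul_of_dvd_left (hdζ k) _)
  have hsb : Summable b := summable_nat fun k =>
    dvd_sub (dvd_mul_of_dvd_left (hdξ k) _) (dvd_mul_of_dvd_left (hdζ k) _)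
  have hsc : Summable c := summable_nat fun k =>
    dvd_add (dvd_mul_of_dvd_left (hdξ k) _) (dvd_mul_of_dvd_left (hdζ k) _)
  have hsξ : Summable ξ := summable_nat hdξ
  have hsζ : Summable fun k : ℕ => ((k + 1 : ℕ) : R⟦X⟧) * ζ k :=
    summable_nat fun k => dvd_mul_of_dvd_right (hdζ k) _
  have habc : ∑' k, a k + ∑' k, b k + ∑' k, c k = (2 * A + 2 * B) * sf R 1 + tf R := by
    rw [← hsa.tsum_add hsb, ← (hsa.add hsb).tsum_add hsc, ← hSeq, ← hTeq,
      ← hsξ.tsum_mul_left, ← (hsξ.mul_left _).tsum_add hsζ]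
    refine tsum_congr fun k => ?_
    simp only [ha, hb, hc]
    ring
  -- squares of the diagonal
  have hDA : 6 * ∑' m, xA m ^ 2 = (C (u * (1 + 4 * u + u ^ 2) * t ^ 4) +
      lam fun d => (d : R) ^ 3 * u ^ d) - A := by
    have e : ∀ m, 6 * xA m ^ 2 = wT (C u * qX ^ m : R⟦X⟧) - xA m := fun m =>
      six_xT_sq (C u * qX ^ m : R⟦X⟧)
    have hs : Summable fun m => xA m ^ 2 := summable_nat fun m =>
      dvd_pow (dvd_x (gA u) hdA m) two_ne_zero
    rw [← hs.tsum_mul_left, tsum_congr e, hWA.summable.tsum_sub hA.summable, hWA.tsum_eq]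
  have hDB : 6 * ∑' m, xB m ^ 2 = (lam fun d => (d : R) ^ 3 * ui ^ d) - B := by
    have e : ∀ m, 6 * xB m ^ 2 = wT (pt ui (m + 1)) - xB m := fun m =>
      six_xT_sq (pt ui (m + 1))
    have hs : Summable fun m => xB m ^ 2 := summable_nat fun m =>
      dvd_pow (dvd_x (gB ui) hdB m) two_ne_zero
    rw [← hs.tsum_mul_left, tsum_congr e, hWB.summable.tsum_sub hB.summable, hWB.tsum_eq]
  -- `X`, `W` in terms of `A`, `B`
  have hX : Xf u ui t = A + B - 2 * sf R 1 := by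
    rw [hAeq, hBeq, Xf, sf]
    have e : (fun d : ℕ => (d : R) * (u ^ d + ui ^ d - 2)) =
        fun d : ℕ => ((d : R) * u ^ d + (d : R) * ui ^ d) - 2 * (d : R) ^ 1 := by
      funext d; ring
    rw [e, lam_sub, lam_add, lam_smul, map_ofNat]
    ring
  have hW : Wf u ui t = (C (u * (1 + 4 * u + u ^ 2) * t ^ 4) +
      lam fun d => (d : R) ^ 3 * u ^ d) + lam fun d => (d : R) ^ 3 * ui ^ d := by
    rw [Wf]
    have e : (fun d : ℕ => (d : R) ^ 3 * (u ^ d + ui ^ d)) =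
        fun d : ℕ => (d : R) ^ 3 * u ^ d + (d : R) ^ 3 * ui ^ d := by
      funext d; ring
    rw [e, lam_add]
    ring
  -- conclusion
  have hsq : (A + B) ^ 2 = A ^ 2 + 2 * (A * B) + B ^ 2 := by ring
  rw [hX, hW, cf]
  have key : 6 * (A + B) ^ 2 = 6 * ∑' m, xA m ^ 2 + 6 * ∑' m, xB m ^ 2 +
      12 * ((2 * A + 2 * B) * sf R 1 + tf R) := by
    rw [hsq, h1, h2, h3, ← habc]
    ring
  linear_combination (-1 : R⟦X⟧) * key - hDA - hDB

end Assembly

/-- **the quadratic identity** `W = 6 X² + X + c` (topology-free statement). -/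
theorem Wf_eq {R : Type*} [CommRing R] (u ui t : R) (hui : u * ui = 1) (ht : (1 - u) * t = 1) :
    Wf u ui t = 6 * Xf u ui t ^ 2 + Xf u ui t + cf R := by
  letI : TopologicalSpace R := ⊥
  haveI : DiscreteTopology R := ⟨rfl⟩
  exact Wf_eq_top u ui t hui ht

end Fermat.Agent.GZ.Tate.T1Eq
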