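/-
GATE-Z (S15) / [MOD-beta] (T1-EQ), file 8 (helper22): the FORMAL Tate equation for every
commutative ring `R` and `u ui t : R` with `u * ui = 1`, `(1 - u) * t = 1`:

  `Yf² + Xf Yf = Xf³ + a4f Xf + a6f`   in `R⟦X⟧`.

Transfer from the generic point: the universal ring `ℤ[T, 1/T, 1/(1-T)]` (a localisation of `ℤ[T]`)
injects into `F = Frac ℚ⟦z⟧` by `T ↦ e^z` (the powers of `e^z` are eigenvectors of `d/dz` for
distinct eigenvalues, hence linearly independent) and maps to every `(R, u)`.
-/
import Fermat.Agent.GZ.Tate.T1Eq.Generic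

set_option autoImplicit false

noncomputable section

namespace Fermat.Agent.GZ.Tate.T1Eq

open PowerSeries

local notation "qX" => PowerSeries.X

/-! ### `e^z` is transcendental -/

theorem linearIndependent_ez_pow : LinearIndependent ℚ fun k : ℕ => ez ^ k := by
  refine Module.End.eigenvectors_linearIndependent' ((d⁄dX ℚ : Derivation ℚ EE EE) : EE →ₗ[ℚ] EE)
    (fun k : ℕ => (k : ℚ)) Nat.cast_injective _ fun k => ?_
  rw [Module.End.hasEigenvector_iff, Module.End.mem_eigenspace_iff]
  constructor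
  · show d⁄dX ℚ (ez ^ k) = (k : ℚ) • ez ^ k
    rw [deriv_ez_pow]
    rw [← map_natCast (C (R := ℚ)), ← smul_eq_C_mul]
  · intro h
    have := congrArg (constantCoeff (R := ℚ)) h
    rw [map_pow, ez, constantCoeff_exp, one_pow, map_zero] at this
    exact one_ne_zero this

/-- `ℤ[T] → ℚ⟦z⟧`, `T ↦ e^z`. -/
def evE : Polynomial ℤ →+* EE := Polynomial.eval₂RingHom (Int.castRingHom EE) ez

theorem evE_injective : Function.Injective evE := by
  rw [injective_iff_map_eq_zero]
  intro p hp
  have h : ∑ i ∈ Finset.range (p.natDegree + 1), ((p.coeff i : ℤ) : ℚ) • ez ^ i = 0 := by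
    have := hp
    rw [evE, Polynomial.coe_eval₂RingHom, Polynomial.eval₂_eq_sum_range] at this
    rw [← this]
    refine Finset.sum_congr rfl fun i _ => ?_
    rw [smul_eq_C_mul, eq_intCast, map_intCast]
  have h2 := linearIndependent_iff'.mp linearIndependent_ez_pow _ _ h
  ext i
  by_cases hi : i ∈ Finset.range (p.natDegree + 1)
  · have := h2 i hi
    rw [Polynomial.coeff_zero]
    exact_mod_cast this
  · rw [Polynomial.coeff_zero]
    apply Polynomial.coeff_eq_zero_of_natDegree_lt
    rw [Finset.mem_range] at hi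
    omega

/-! ### the universal ring -/

/-- `T (1 - T)`. -/
def tT : Polynomial ℤ := Polynomial.X * (1 - Polynomial.X)

theorem tT_def : tT = Polynomial.X * (1 - Polynomial.X) := rfl

/-- `ℤ[T, 1/T, 1/(1-T)]`. -/
abbrev R0 : Type := Localization.Away tT

/-- `ℤ[T] → R₀`. -/
abbrev j0 : Polynomial ℤ →+* R0 := algebraMap (Polynomial ℤ) R0

/-- `T`. -/
def u0 : R0 := j0 Polynomial.X
/-- `1/(T(1-T))`. -/
def w0 : R0 := IsLocalization.Away.invSelf tT
/-- `1/T`. -/
def ui0 : R0 := (1 - u0) * w0
/-- `1/(1-T)`. -/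
def t0 : R0 := u0 * w0

theorem u0_mul_w0 : u0 * (1 - u0) * w0 = 1 := by
  have h := IsLocalization.Away.mul_invSelf (S := R0) tT
  have e : j0 tT = u0 * (1 - u0) := by
    have h' := congrArg j0 tT_def
    rw [map_mul, map_sub, map_one] at h'
    exact h'
  rw [← e]
  exact h

theorem u0_mul_ui0 : u0 * ui0 = 1 := by
  rw [ui0]; linear_combination u0_mul_w0

theorem one_sub_u0_mul_t0 : (1 - u0) * t0 = 1 := by
  rw [t0]; linear_combination u0_mul_w0

section Lift

variable {R : Type*} [CommRing R] (u ui t : R) (hui : u * ui = 1) (ht : (1 - u) * t = 1)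

/-- `ℤ[T] → R`, `T ↦ u`. -/
def evR : Polynomial ℤ →+* R := Polynomial.eval₂RingHom (Int.castRingHom R) u

include hui ht in
theorem isUnit_evR_tt : IsUnit (evR u tT) := by
  have h : evR u tT = u * (1 - u) := by
    simp [evR, tT_def]
  rw [h]
  exact IsUnit.of_mul_eq_one (ui * t) (by linear_combination (1 - u) * t * hui + ht)

/-- `R₀ → R`, `T ↦ u`. -/
def liftR : R0 →+* R := IsLocalization.Away.lift tT (isUnit_evR_tt u ui t hui ht)

theorem liftR_j0 (p : Polynomial ℤ) : liftR u ui t hui ht (j0 p) = evR u p :=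
  IsLocalization.Away.lift_eq tT _ p

theorem liftR_u0 : liftR u ui t hui ht u0 = u := by
  rw [u0, liftR_j0]; simp [evR]

theorem liftR_ui0 : liftR u ui t hui ht ui0 = ui := by
  have h := congrArg (liftR u ui t hui ht) u0_mul_ui0
  rw [map_mul, liftR_u0, map_one] at h
  linear_combination ui * h - (liftR u ui t hui ht ui0) * hui

theorem liftR_t0 : liftR u ui t hui ht t0 = t := by
  have h := congrArg (liftR u ui t hui ht) one_sub_u0_mul_t0
  rw [map_mul, map_sub, map_one, liftR_u0] at h
  linear_combination t * h - (liftR u ui t hui ht t0) * ht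

end Lift

/-! ### injectivity into `F` -/

theorem tt_ne_zero : tT ≠ 0 := by
  intro h
  have := congrArg (Polynomial.eval 2) h
  simp [tT_def] at this

theorem j0_injective : Function.Injective j0 :=
  IsLocalization.injective R0 (powers_le_nonZeroDivisors_of_noZeroDivisors tt_ne_zero)

theorem evR_uF (p : Polynomial ℤ) : evR uF p = iota (evE p) := by
  rw [evR, evE, Polynomial.coe_eval₂RingHom, Polynomial.coe_eval₂RingHom, Polynomial.hom_eval₂,
    uF]
  congr 1
  exact RingHom.ext_int _ _

theorem liftF_injective :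
    Function.Injective (liftR uF uiF tF uF_mul_uiF one_sub_uF_mul_tF) := by
  rw [injective_iff_map_eq_zero]
  intro a ha
  obtain ⟨⟨p, ⟨_, n, rfl⟩⟩, hpa⟩ := IsLocalization.surj (Submonoid.powers tT) a
  simp only at hpa
  have h1 := congrArg (liftR uF uiF tF uF_mul_uiF one_sub_uF_mul_tF) hpa
  rw [map_mul, ha, zero_mul, liftR_j0, evR_uF] at h1
  have h2 : evE p = 0 := iota_injective (h1.symm.trans (map_zero iota).symm)
  have h3 : p = 0 := evE_injective (h2.trans (map_zero evE).symm)
  rw [h3, map_zero] at hpa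
  have hu : IsUnit (j0 (tT ^ n)) := by
    rw [map_pow]; exact (IsLocalization.Away.algebraMap_isUnit tT).pow n
  exact (hu.mul_left_eq_zero).mp hpa

/-! ### the formal Tate equation -/

/-- the equation in the universal ring. -/
theorem formal_eq_R0 : Yf u0 ui0 t0 ^ 2 + Xf u0 ui0 t0 * Yf u0 ui0 t0 =
    Xf u0 ui0 t0 ^ 3 + a4f R0 * Xf u0 ui0 t0 + a6f R0 := by
  apply map_injective_of_injective _ liftF_injective
  simp only [map_add, map_mul, map_pow, map_Xf, map_Yf, map_a4f, map_a6f, liftR_u0, liftR_ui0,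
    liftR_t0]
  exact generic_eq

/-- **the formal Tate equation** over any commutative ring. -/
theorem formal_eq {R : Type*} [CommRing R] (u ui t : R) (hui : u * ui = 1)
    (ht : (1 - u) * t = 1) :
    Yf u ui t ^ 2 + Xf u ui t * Yf u ui t = Xf u ui t ^ 3 + a4f R * Xf u ui t + a6f R := by
  have h := congrArg (PowerSeries.map (liftR u ui t hui ht)) formal_eq_R0
  simp only [map_add, map_mul, map_pow, map_Xf, map_Yf, map_a4f, map_a6f, liftR_u0, liftR_ui0,
    liftR_t0] at h
  exact h

end Fermat.Agent.GZ.Tate.T1Eq
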